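import Mathlib

/-!
# S52 / K : Klein's icosahedral forms in the variables `X = u^5`, `Y = v^5`, and the family

`kh, kT, kD` : `H, T, f^5`;  `kT^2 + kh^3 = 1728 kD`.  The curve `E_(X,Y) : y^2 = x^3 + 27 kh x + 54 kT`.
The line `w0 + t w1`, `w1 = (f_v, -f_u)(w0)` reads `X(t) = X (1 + t kal)^5`, `Y(t) = Y (1 - t kbe)^5`, and
`kh (X(t),Y(t)) = fH a b D t`, `kT (X(t),Y(t)) = fT a b D t`, `kD (X(t),Y(t)) = D * (fD a b D t)^5`
with `a = kh X Y`, `b = kT X Y`, `D = kD X Y`.
-/

set_option autoImplicit false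

namespace Fermat.Agent.S52.K

variable {R : Type*} [CommRing R]

def kphi (X Y : R) : R := X^2 + 11*X*Y - Y^2
def kh (X Y : R) : R := -(X^4+Y^4) + 228*(X^3*Y - X*Y^3) - 494*X^2*Y^2
def kT (X Y : R) : R := X^6+Y^6 + 522*(X^5*Y - X*Y^5) - 10005*(X^4*Y^2 + X^2*Y^4)
def kD (X Y : R) : R := X*Y*(kphi X Y)^5
def kal (X Y : R) : R := X^2 + 66*X*Y - 11*Y^2
def kbe (X Y : R) : R := 11*X^2 + 66*X*Y - Y^2

def fH (a b D t : R) : R :=
    (1*a) * t^0
    + ((-20)*b) * t^1
    + ((-190)*a^2) * t^2
    + (1140*a*b) * t^3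
    + (4845*a^3 + (-9849600)*D) * t^4
    + ((-15504)*a^2*b) * t^5
    + ((-38760)*a^4 + (-110315520)*a*D) * t^6
    + (77520*a^3*b + 315187200*b*D) * t^7
    + (125970*a^5 + (-1946280960)*a^2*D) * t^8
    + ((-167960)*a^4*b + 13658112000*a*b*D) * t^9
    + ((-184756)*a^6 + 44921530368*a^3*D + (-47202435072000)*D^2) * t^10
    + (167960*a^5*b + (-94787297280)*a^2*b*D) * t^11
    + (125970*a^7 + (-143563829760)*a^4*D + 113285844172800*a*D^2) * t^12
    + ((-77520)*a^6*b + 161627996160*a^3*b*D + (-174285914112000)*b*D^2) * t^13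
    + ((-38760)*a^8 + 137784084480*a^5*D + (-858358127001600)*a^2*D^2) * t^14
    + (15504*a^7*b + (-88870182912)*a^4*b*D + 1394287312896000*a*b*D^2) * t^15
    + (4845*a^9 + (-42857579520)*a^6*D + 1584258959278080*a^3*D^2 + (-3011660595855360000)*D^3) * t^16
    + ((-1140)*a^8*b + 15002910720*a^5*b*D + (-1080572667494400)*a^2*b*D^2) * t^17
    + ((-190)*a^10 + 3608893440*a^7*D + (-473621971599360)*a^4*D^2 + (-3212437968912384000)*a*D^3) * t^18
    + (20*a^9*b + (-534159360)*a^6*b*D + 117413668454400*a^3*b*D^2 + 3381513651486720000*b*D^3) * t^19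
    + (1*a^11 + (-36723456)*a^8*D + 12915503529984*a^5*D^2 + 929916254158848000*a^2*D^3) * t^20

def fT (a b D t : R) : R :=
    (1*b) * t^0
    + (30*a^2) * t^1
    + ((-435)*a*b) * t^2
    + ((-4060)*a^3 + 5011200*D) * t^3
    + (27405*a^2*b) * t^4
    + (142506*a^4 + (-81181440)*a*D) * t^5
    + ((-593775)*a^3*b + 270604800*b*D) * t^6
    + ((-2035800)*a^5 + 6765120000*a^2*D) * t^7
    + (5852925*a^4*b + (-24895641600)*a*b*D) * t^8
    + (14307150*a^6 + (-38035008000)*a^3*D + 95599263744000*D^2) * t^9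
    + ((-30045015)*a^5*b + (-374264478720)*a^2*b*D) * t^10
    + ((-54627300)*a^7 + (-2708438342400)*a^4*D + 4359326426726400*a*D^2) * t^11
    + (86493225*a^6*b + 11194740172800*a^3*b*D + (-7265544044544000)*b*D^2) * t^12
    + (119759850*a^8 + 32579058988800*a^5*D + (-35964443020492800)*a^2*D^2) * t^13
    + ((-145422675)*a^7*b + (-74381953190400)*a^4*b*D) * t^14
    + ((-155117520)*a^9 + (-136970011100160)*a^6*D + 237147357613916160*a^3*D^2) * t^15
    + (145422675*a^8*b + 209073598156800*a^5*b*D + (-889302591052185600)*a^2*b*D^2) * t^16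
    + (119759850*a^10 + 267018203980800*a^7*D + (-3485281478167756800)*a^4*D^2 + 3615799711383945216000*a*D^3) * t^17
    + ((-86493225)*a^9*b + (-288067468953600)*a^6*b*D + 7881662179521331200*a^3*b*D^2 + (-4017555234871050240000)*b*D^3) * t^18
    + ((-54627300)*a^11 + (-263137595846400)*a^8*D + 14246737639007846400*a^5*D^2 + (-22138843846894682112000)*a^2*D^3) * t^19
    + (30045015*a^10*b + 203855471677440*a^7*b*D + (-19214717810198446080)*a^4*b*D^2 + 17761823143640432640000*a*b*D^3) * t^20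
    + (14307150*a^12 + 133590358598400*a^9*D + (-20908591452861235200)*a^6*D^2 + 41215887704266584883200*a^3*D^3 + (-29230886087819683430400000)*D^4) * t^21
    + ((-5852925)*a^11*b + (-73734666508800)*a^8*b*D + 17973273419159961600*a^5*b*D^2 + (-23597850747979431936000)*a^2*b*D^3) * t^22
    + ((-2035800)*a^13 + (-33996351628800)*a^10*D + 12476571793647206400*a^7*D^2 + (-29446013759435204198400)*a^4*D^3 + (-54903229521470014095360000)*a*D^4) * t^23
    + (593775*a^12*b + 12942486374400*a^9*b*D + (-6877999592688844800)*a^6*b*D^2 + 11627926455526096896000*a^3*b*D^3 + 45752691267891678412800000*b*D^4) * t^24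
    + (142506*a^14 + 3998272513536*a^11*D + (-3001181670175408128)*a^8*D^2 + 8215692682431874203648*a^5*D^3 + (-162422054001015458365440000)*a^2*D^4) * t^25
    + ((-27405)*a^13*b + (-977532779520)*a^10*b*D + 1009272850407751680*a^7*b*D^2 + (-2081773929940962508800)*a^4*b*D^3 + 366021530143133427302400000*a*b*D^4) * t^26
    + ((-4060)*a^15 + (-182045871360)*a^12*D + 253675112528609280*a^9*D^2 + (-788715656681336340480)*a^6*D^3 + 357616591302809622675456000*a^3*D^4 + (-468507558583210786947072000000)*D^5) * t^27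
    + (435*a^14*b + 24270243840*a^11*b*D + (-44768387043164160)*a^8*b*D^2 + 108850924441357516800*a^5*b*D^3 + (-191144576852525234257920000)*a^2*b*D^4) * t^28
    + (30*a^16 + 2063335680*a^13*D + (-4963496574320640)*a^10*D^2 + 17260936434013962240*a^7*D^3 + (-55089045049224669954048000)*a^4*D^4 + (-77546078662048681977446400000)*a*D^5) * t^29
    + ((-1)*a^15*b + (-84063744)*a^12*b*D + 259826663817216*a^9*b*D^2 + (-727025435069644800)*a^6*b*D^3 + 6731430439413948088320000*a^3*b*D^4 + 51697385774699121318297600000*b*D^5) * t^30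

def fD (a b D t : R) : R :=
    (1) * t^0
    + (66*a) * t^2
    + ((-440)*b) * t^3
    + ((-1485)*a^2) * t^4
    + (3168*a*b) * t^5
    + (4620*a^3 + (-18247680)*D) * t^6
    + ((-4752)*a^2*b) * t^7
    + ((-3465)*a^4 + (-109486080)*a*D) * t^8
    + (1760*a^3*b + 243302400*b*D) * t^9
    + (594*a^5 + 229920768*a^2*D) * t^10
    + ((-120)*a^4*b + (-106168320)*a*b*D) * t^11
    + ((-11)*a^6 + (-19464192)*a^3*D + 305764761600*D^2) * t^12

theorem klein_rel (X Y : R) : kT X Y ^ 2 + kh X Y ^ 3 = 1728 * kD X Y := by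
  unfold kT kh kD kphi
  ring

theorem kal_add_kbe (X Y : R) : kal X Y + kbe X Y = 12 * kphi X Y := by
  unfold kal kbe kphi
  ring

theorem fH_neg (a b D t : R) : fH a (-b) D (-t) = fH a b D t := by
  unfold fH
  ring

theorem fT_neg (a b D t : R) : fT a (-b) D (-t) = - fT a b D t := by
  unfold fT
  ring

theorem fD_neg (a b D t : R) : fD a (-b) D (-t) = fD a b D t := by
  unfold fD
  ring

theorem map_fH {S : Type*} [CommRing S] (σ : R →+* S) (a b D t : R) :
    σ (fH a b D t) = fH (σ a) (σ b) (σ D) (σ t) := by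
  unfold fH
  simp only [map_add, map_mul, map_pow, map_neg, map_ofNat, map_one]

theorem map_fT {S : Type*} [CommRing S] (σ : R →+* S) (a b D t : R) :
    σ (fT a b D t) = fT (σ a) (σ b) (σ D) (σ t) := by
  unfold fT
  simp only [map_add, map_mul, map_pow, map_neg, map_ofNat, map_one]

theorem map_fD {S : Type*} [CommRing S] (σ : R →+* S) (a b D t : R) :
    σ (fD a b D t) = fD (σ a) (σ b) (σ D) (σ t) := by
  unfold fD
  simp only [map_add, map_mul, map_pow, map_neg, map_ofNat, map_one]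

theorem fH_zero (a b D : R) : fH a b D 0 = a := by
  unfold fH
  ring

theorem fT_zero (a b D : R) : fT a b D 0 = b := by
  unfold fT
  ring

theorem fD_zero (a b D : R) : fD a b D 0 = 1 := by
  unfold fD
  ring

end Fermat.Agent.S52.K
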