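import Fermat.Agent.S52.K.Defs

/-! # S52 / K : the discriminant along the line -/

set_option autoImplicit false
set_option maxHeartbeats 4000000

namespace Fermat.Agent.S52.K

variable {R : Type*} [CommRing R]

theorem kphi_line (X Y t : R) :
    (1 + t * kal X Y) * (1 - t * kbe X Y) * kphi (X * (1 + t * kal X Y) ^ 5) (Y * (1 - t * kbe X Y) ^ 5)
      = kphi X Y * fD (kh X Y) (kT X Y) (kD X Y) t := by
  unfold fD kphi kh kT kD kal kbe kphi
  ring

theorem kD_line (X Y t : R) :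
    kD (X * (1 + t * kal X Y) ^ 5) (Y * (1 - t * kbe X Y) ^ 5)
      = kD X Y * fD (kh X Y) (kT X Y) (kD X Y) t ^ 5 := by
  have h := kphi_line X Y t
  have e : kD (X * (1 + t * kal X Y) ^ 5) (Y * (1 - t * kbe X Y) ^ 5) = X * Y *
      ((1 + t * kal X Y) * (1 - t * kbe X Y) *
        kphi (X * (1 + t * kal X Y) ^ 5) (Y * (1 - t * kbe X Y) ^ 5)) ^ 5 := by
    rw [kD]
    ring
  rw [e, h]
  generalize fD (kh X Y) (kT X Y) (kD X Y) t = z
  rw [kD]
  ring

end Fermat.Agent.S52.K
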