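import Fermat.Agent.S52.K.Defs

/-! # S52 / K : the identity `kh (X(t), Y(t)) = fH ..` (auto-generated, coefficient by coefficient) -/

set_option autoImplicit false
set_option maxHeartbeats 1000000

namespace Fermat.Agent.S52.K

variable {R : Type*} [CommRing R]

def LH0 (X Y A B : R) : R :=
  (-1)*X^4 + 228*X^3*Y + (-494)*X^2*Y^2 + (-228)*X*Y^3 + (-1)*Y^4

def LH1 (X Y A B : R) : R :=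
  (-20)*X^4*A + (-1140)*X^3*Y*B + 3420*X^3*Y*A + 4940*X^2*Y^2*B + (-4940)*X^2*Y^2*A + 3420*X*Y^3*B + (-1140)*X*Y^3*A + 20*Y^4*B

def LH2 (X Y A B : R) : R :=
  (-190)*X^4*A^2 + 2280*X^3*Y*B^2 + (-17100)*X^3*Y*A*B + 23940*X^3*Y*A^2 + (-22230)*X^2*Y^2*B^2 + 49400*X^2*Y^2*A*B + (-22230)*X^2*Y^2*A^2 + (-23940)*X*Y^3*B^2 + 17100*X*Y^3*A*B + (-2280)*X*Y^3*A^2 + (-190)*Y^4*B^2

def LH3 (X Y A B : R) : R :=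
  (-1140)*X^4*A^3 + (-2280)*X^3*Y*B^3 + 34200*X^3*Y*A*B^2 + (-119700)*X^3*Y*A^2*B + 103740*X^3*Y*A^3 + 59280*X^2*Y^2*B^3 + (-222300)*X^2*Y^2*A*B^2 + 222300*X^2*Y^2*A^2*B + (-59280)*X^2*Y^2*A^3 + 103740*X*Y^3*B^3 + (-119700)*X*Y^3*A*B^2 + 34200*X*Y^3*A^2*B + (-2280)*X*Y^3*A^3 + 1140*Y^4*B^3

def LH4 (X Y A B : R) : R :=
  (-4845)*X^4*A^4 + 1140*X^3*Y*B^4 + (-34200)*X^3*Y*A*B^3 + 239400*X^3*Y*A^2*B^2 + (-518700)*X^3*Y*A^3*B + 311220*X^3*Y*A^4 + (-103740)*X^2*Y^2*B^4 + 592800*X^2*Y^2*A*B^3 + (-1000350)*X^2*Y^2*A^2*B^2 + 592800*X^2*Y^2*A^3*B + (-103740)*X^2*Y^2*A^4 + (-311220)*X*Y^3*B^4 + 518700*X*Y^3*A*B^3 + (-239400)*X*Y^3*A^2*B^2 + 34200*X*Y^3*A^3*B + (-1140)*X*Y^3*A^4 + (-4845)*Y^4*B^4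

def LH5 (X Y A B : R) : R :=
  (-15504)*X^4*A^5 + (-228)*X^3*Y*B^5 + 17100*X^3*Y*A*B^4 + (-239400)*X^3*Y*A^2*B^3 + 1037400*X^3*Y*A^3*B^2 + (-1556100)*X^3*Y*A^4*B + 684684*X^3*Y*A^5 + 124488*X^2*Y^2*B^5 + (-1037400)*X^2*Y^2*A*B^4 + 2667600*X^2*Y^2*A^2*B^3 + (-2667600)*X^2*Y^2*A^3*B^2 + 1037400*X^2*Y^2*A^4*B + (-124488)*X^2*Y^2*A^5 + 684684*X*Y^3*B^5 + (-1556100)*X*Y^3*A*B^4 + 1037400*X*Y^3*A^2*B^3 + (-239400)*X*Y^3*A^3*B^2 + 17100*X*Y^3*A^4*B + (-228)*X*Y^3*A^5 + 15504*Y^4*B^5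

def LH6 (X Y A B : R) : R :=
  (-38760)*X^4*A^6 + (-3420)*X^3*Y*A*B^5 + 119700*X^3*Y*A^2*B^4 + (-1037400)*X^3*Y*A^3*B^3 + 3112200*X^3*Y*A^4*B^2 + (-3423420)*X^3*Y*A^5*B + 1141140*X^3*Y*A^6 + (-103740)*X^2*Y^2*B^6 + 1244880*X^2*Y^2*A*B^5 + (-4668300)*X^2*Y^2*A^2*B^4 + 7113600*X^2*Y^2*A^3*B^3 + (-4668300)*X^2*Y^2*A^4*B^2 + 1244880*X^2*Y^2*A^5*B + (-103740)*X^2*Y^2*A^6 + (-1141140)*X*Y^3*B^6 + 3423420*X*Y^3*A*B^5 + (-3112200)*X*Y^3*A^2*B^4 + 1037400*X*Y^3*A^3*B^3 + (-119700)*X*Y^3*A^4*B^2 + 3420*X*Y^3*A^5*B + (-38760)*Y^4*B^6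

def LH7 (X Y A B : R) : R :=
  (-77520)*X^4*A^7 + (-23940)*X^3*Y*A^2*B^5 + 518700*X^3*Y*A^3*B^4 + (-3112200)*X^3*Y*A^4*B^3 + 6846840*X^3*Y*A^5*B^2 + (-5705700)*X^3*Y*A^6*B + 1467180*X^3*Y*A^7 + 59280*X^2*Y^2*B^7 + (-1037400)*X^2*Y^2*A*B^6 + 5601960*X^2*Y^2*A^2*B^5 + (-12448800)*X^2*Y^2*A^3*B^4 + 12448800*X^2*Y^2*A^4*B^3 + (-5601960)*X^2*Y^2*A^5*B^2 + 1037400*X^2*Y^2*A^6*B + (-59280)*X^2*Y^2*A^7 + 1467180*X*Y^3*B^7 + (-5705700)*X*Y^3*A*B^6 + 6846840*X*Y^3*A^2*B^5 + (-3112200)*X*Y^3*A^3*B^4 + 518700*X*Y^3*A^4*B^3 + (-23940)*X*Y^3*A^5*B^2 + 77520*Y^4*B^7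

def LH8 (X Y A B : R) : R :=
  (-125970)*X^4*A^8 + (-103740)*X^3*Y*A^3*B^5 + 1556100*X^3*Y*A^4*B^4 + (-6846840)*X^3*Y*A^5*B^3 + 11411400*X^3*Y*A^6*B^2 + (-7335900)*X^3*Y*A^7*B + 1467180*X^3*Y*A^8 + (-22230)*X^2*Y^2*B^8 + 592800*X^2*Y^2*A*B^7 + (-4668300)*X^2*Y^2*A^2*B^6 + 14938560*X^2*Y^2*A^3*B^5 + (-21785400)*X^2*Y^2*A^4*B^4 + 14938560*X^2*Y^2*A^5*B^3 + (-4668300)*X^2*Y^2*A^6*B^2 + 592800*X^2*Y^2*A^7*B + (-22230)*X^2*Y^2*A^8 + (-1467180)*X*Y^3*B^8 + 7335900*X*Y^3*A*B^7 + (-11411400)*X*Y^3*A^2*B^6 + 6846840*X*Y^3*A^3*B^5 + (-1556100)*X*Y^3*A^4*B^4 + 103740*X*Y^3*A^5*B^3 + (-125970)*Y^4*B^8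

def LH9 (X Y A B : R) : R :=
  (-167960)*X^4*A^9 + (-311220)*X^3*Y*A^4*B^5 + 3423420*X^3*Y*A^5*B^4 + (-11411400)*X^3*Y*A^6*B^3 + 14671800*X^3*Y*A^7*B^2 + (-7335900)*X^3*Y*A^8*B + 1141140*X^3*Y*A^9 + 4940*X^2*Y^2*B^9 + (-222300)*X^2*Y^2*A*B^8 + 2667600*X^2*Y^2*A^2*B^7 + (-12448800)*X^2*Y^2*A^3*B^6 + 26142480*X^2*Y^2*A^4*B^5 + (-26142480)*X^2*Y^2*A^5*B^4 + 12448800*X^2*Y^2*A^6*B^3 + (-2667600)*X^2*Y^2*A^7*B^2 + 222300*X^2*Y^2*A^8*B + (-4940)*X^2*Y^2*A^9 + 1141140*X*Y^3*B^9 + (-7335900)*X*Y^3*A*B^8 + 14671800*X*Y^3*A^2*B^7 + (-11411400)*X*Y^3*A^3*B^6 + 3423420*X*Y^3*A^4*B^5 + (-311220)*X*Y^3*A^5*B^4 + 167960*Y^4*B^9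

def LH10 (X Y A B : R) : R :=
  (-184756)*X^4*A^10 + (-684684)*X^3*Y*A^5*B^5 + 5705700*X^3*Y*A^6*B^4 + (-14671800)*X^3*Y*A^7*B^3 + 14671800*X^3*Y*A^8*B^2 + (-5705700)*X^3*Y*A^9*B + 684684*X^3*Y*A^10 + (-494)*X^2*Y^2*B^10 + 49400*X^2*Y^2*A*B^9 + (-1000350)*X^2*Y^2*A^2*B^8 + 7113600*X^2*Y^2*A^3*B^7 + (-21785400)*X^2*Y^2*A^4*B^6 + 31370976*X^2*Y^2*A^5*B^5 + (-21785400)*X^2*Y^2*A^6*B^4 + 7113600*X^2*Y^2*A^7*B^3 + (-1000350)*X^2*Y^2*A^8*B^2 + 49400*X^2*Y^2*A^9*B + (-494)*X^2*Y^2*A^10 + (-684684)*X*Y^3*B^10 + 5705700*X*Y^3*A*B^9 + (-14671800)*X*Y^3*A^2*B^8 + 14671800*X*Y^3*A^3*B^7 + (-5705700)*X*Y^3*A^4*B^6 + 684684*X*Y^3*A^5*B^5 + (-184756)*Y^4*B^10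

def LH11 (X Y A B : R) : R :=
  (-167960)*X^4*A^11 + (-1141140)*X^3*Y*A^6*B^5 + 7335900*X^3*Y*A^7*B^4 + (-14671800)*X^3*Y*A^8*B^3 + 11411400*X^3*Y*A^9*B^2 + (-3423420)*X^3*Y*A^10*B + 311220*X^3*Y*A^11 + (-4940)*X^2*Y^2*A*B^10 + 222300*X^2*Y^2*A^2*B^9 + (-2667600)*X^2*Y^2*A^3*B^8 + 12448800*X^2*Y^2*A^4*B^7 + (-26142480)*X^2*Y^2*A^5*B^6 + 26142480*X^2*Y^2*A^6*B^5 + (-12448800)*X^2*Y^2*A^7*B^4 + 2667600*X^2*Y^2*A^8*B^3 + (-222300)*X^2*Y^2*A^9*B^2 + 4940*X^2*Y^2*A^10*B + 311220*X*Y^3*B^11 + (-3423420)*X*Y^3*A*B^10 + 11411400*X*Y^3*A^2*B^9 + (-14671800)*X*Y^3*A^3*B^8 + 7335900*X*Y^3*A^4*B^7 + (-1141140)*X*Y^3*A^5*B^6 + 167960*Y^4*B^11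

def LH12 (X Y A B : R) : R :=
  (-125970)*X^4*A^12 + (-1467180)*X^3*Y*A^7*B^5 + 7335900*X^3*Y*A^8*B^4 + (-11411400)*X^3*Y*A^9*B^3 + 6846840*X^3*Y*A^10*B^2 + (-1556100)*X^3*Y*A^11*B + 103740*X^3*Y*A^12 + (-22230)*X^2*Y^2*A^2*B^10 + 592800*X^2*Y^2*A^3*B^9 + (-4668300)*X^2*Y^2*A^4*B^8 + 14938560*X^2*Y^2*A^5*B^7 + (-21785400)*X^2*Y^2*A^6*B^6 + 14938560*X^2*Y^2*A^7*B^5 + (-4668300)*X^2*Y^2*A^8*B^4 + 592800*X^2*Y^2*A^9*B^3 + (-22230)*X^2*Y^2*A^10*B^2 + (-103740)*X*Y^3*B^12 + 1556100*X*Y^3*A*B^11 + (-6846840)*X*Y^3*A^2*B^10 + 11411400*X*Y^3*A^3*B^9 + (-7335900)*X*Y^3*A^4*B^8 + 1467180*X*Y^3*A^5*B^7 + (-125970)*Y^4*B^12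

def LH13 (X Y A B : R) : R :=
  (-77520)*X^4*A^13 + (-1467180)*X^3*Y*A^8*B^5 + 5705700*X^3*Y*A^9*B^4 + (-6846840)*X^3*Y*A^10*B^3 + 3112200*X^3*Y*A^11*B^2 + (-518700)*X^3*Y*A^12*B + 23940*X^3*Y*A^13 + (-59280)*X^2*Y^2*A^3*B^10 + 1037400*X^2*Y^2*A^4*B^9 + (-5601960)*X^2*Y^2*A^5*B^8 + 12448800*X^2*Y^2*A^6*B^7 + (-12448800)*X^2*Y^2*A^7*B^6 + 5601960*X^2*Y^2*A^8*B^5 + (-1037400)*X^2*Y^2*A^9*B^4 + 59280*X^2*Y^2*A^10*B^3 + 23940*X*Y^3*B^13 + (-518700)*X*Y^3*A*B^12 + 3112200*X*Y^3*A^2*B^11 + (-6846840)*X*Y^3*A^3*B^10 + 5705700*X*Y^3*A^4*B^9 + (-1467180)*X*Y^3*A^5*B^8 + 77520*Y^4*B^13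

def LH14 (X Y A B : R) : R :=
  (-38760)*X^4*A^14 + (-1141140)*X^3*Y*A^9*B^5 + 3423420*X^3*Y*A^10*B^4 + (-3112200)*X^3*Y*A^11*B^3 + 1037400*X^3*Y*A^12*B^2 + (-119700)*X^3*Y*A^13*B + 3420*X^3*Y*A^14 + (-103740)*X^2*Y^2*A^4*B^10 + 1244880*X^2*Y^2*A^5*B^9 + (-4668300)*X^2*Y^2*A^6*B^8 + 7113600*X^2*Y^2*A^7*B^7 + (-4668300)*X^2*Y^2*A^8*B^6 + 1244880*X^2*Y^2*A^9*B^5 + (-103740)*X^2*Y^2*A^10*B^4 + (-3420)*X*Y^3*B^14 + 119700*X*Y^3*A*B^13 + (-1037400)*X*Y^3*A^2*B^12 + 3112200*X*Y^3*A^3*B^11 + (-3423420)*X*Y^3*A^4*B^10 + 1141140*X*Y^3*A^5*B^9 + (-38760)*Y^4*B^14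

def LH15 (X Y A B : R) : R :=
  (-15504)*X^4*A^15 + (-684684)*X^3*Y*A^10*B^5 + 1556100*X^3*Y*A^11*B^4 + (-1037400)*X^3*Y*A^12*B^3 + 239400*X^3*Y*A^13*B^2 + (-17100)*X^3*Y*A^14*B + 228*X^3*Y*A^15 + (-124488)*X^2*Y^2*A^5*B^10 + 1037400*X^2*Y^2*A^6*B^9 + (-2667600)*X^2*Y^2*A^7*B^8 + 2667600*X^2*Y^2*A^8*B^7 + (-1037400)*X^2*Y^2*A^9*B^6 + 124488*X^2*Y^2*A^10*B^5 + 228*X*Y^3*B^15 + (-17100)*X*Y^3*A*B^14 + 239400*X*Y^3*A^2*B^13 + (-1037400)*X*Y^3*A^3*B^12 + 1556100*X*Y^3*A^4*B^11 + (-684684)*X*Y^3*A^5*B^10 + 15504*Y^4*B^15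

def LH16 (X Y A B : R) : R :=
  (-4845)*X^4*A^16 + (-311220)*X^3*Y*A^11*B^5 + 518700*X^3*Y*A^12*B^4 + (-239400)*X^3*Y*A^13*B^3 + 34200*X^3*Y*A^14*B^2 + (-1140)*X^3*Y*A^15*B + (-103740)*X^2*Y^2*A^6*B^10 + 592800*X^2*Y^2*A^7*B^9 + (-1000350)*X^2*Y^2*A^8*B^8 + 592800*X^2*Y^2*A^9*B^7 + (-103740)*X^2*Y^2*A^10*B^6 + 1140*X*Y^3*A*B^15 + (-34200)*X*Y^3*A^2*B^14 + 239400*X*Y^3*A^3*B^13 + (-518700)*X*Y^3*A^4*B^12 + 311220*X*Y^3*A^5*B^11 + (-4845)*Y^4*B^16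

def LH17 (X Y A B : R) : R :=
  (-1140)*X^4*A^17 + (-103740)*X^3*Y*A^12*B^5 + 119700*X^3*Y*A^13*B^4 + (-34200)*X^3*Y*A^14*B^3 + 2280*X^3*Y*A^15*B^2 + (-59280)*X^2*Y^2*A^7*B^10 + 222300*X^2*Y^2*A^8*B^9 + (-222300)*X^2*Y^2*A^9*B^8 + 59280*X^2*Y^2*A^10*B^7 + 2280*X*Y^3*A^2*B^15 + (-34200)*X*Y^3*A^3*B^14 + 119700*X*Y^3*A^4*B^13 + (-103740)*X*Y^3*A^5*B^12 + 1140*Y^4*B^17

def LH18 (X Y A B : R) : R :=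
  (-190)*X^4*A^18 + (-23940)*X^3*Y*A^13*B^5 + 17100*X^3*Y*A^14*B^4 + (-2280)*X^3*Y*A^15*B^3 + (-22230)*X^2*Y^2*A^8*B^10 + 49400*X^2*Y^2*A^9*B^9 + (-22230)*X^2*Y^2*A^10*B^8 + 2280*X*Y^3*A^3*B^15 + (-17100)*X*Y^3*A^4*B^14 + 23940*X*Y^3*A^5*B^13 + (-190)*Y^4*B^18

def LH19 (X Y A B : R) : R :=
  (-20)*X^4*A^19 + (-3420)*X^3*Y*A^14*B^5 + 1140*X^3*Y*A^15*B^4 + (-4940)*X^2*Y^2*A^9*B^10 + 4940*X^2*Y^2*A^10*B^9 + 1140*X*Y^3*A^4*B^15 + (-3420)*X*Y^3*A^5*B^14 + 20*Y^4*B^19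

def LH20 (X Y A B : R) : R :=
  (-1)*X^4*A^20 + (-228)*X^3*Y*A^15*B^5 + (-494)*X^2*Y^2*A^10*B^10 + 228*X*Y^3*A^5*B^15 + (-1)*Y^4*B^20

theorem kh_expand (X Y A B t : R) : kh (X*(1+t*A)^5) (Y*(1-t*B)^5) =
    LH0 X Y A B * t^0 + LH1 X Y A B * t^1 + LH2 X Y A B * t^2 + LH3 X Y A B * t^3 + LH4 X Y A B * t^4 + LH5 X Y A B * t^5 + LH6 X Y A B * t^6 + LH7 X Y A B * t^7 + LH8 X Y A B * t^8 + LH9 X Y A B * t^9 + LH10 X Y A B * t^10 + LH11 X Y A B * t^11 + LH12 X Y A B * t^12 + LH13 X Y A B * t^13 + LH14 X Y A B * t^14 + LH15 X Y A B * t^15 + LH16 X Y A B * t^16 + LH17 X Y A B * t^17 + LH18 X Y A B * t^18 + LH19 X Y A B * t^19 + LH20 X Y A B * t^20 := by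
  unfold kh LH0 LH1 LH2 LH3 LH4 LH5 LH6 LH7 LH8 LH9 LH10 LH11 LH12 LH13 LH14 LH15 LH16 LH17 LH18 LH19 LH20
  ring

theorem LH0_eq (X Y : R) : LH0 X Y (kal X Y) (kbe X Y) = 1*(kh X Y) := by
  simp only [LH0, kh, kT, kD, kphi, kal, kbe]
  ring

theorem LH1_eq (X Y : R) : LH1 X Y (kal X Y) (kbe X Y) = (-20)*(kT X Y) := by
  simp only [LH1, kh, kT, kD, kphi, kal, kbe]
  ring

theorem LH2_eq (X Y : R) : LH2 X Y (kal X Y) (kbe X Y) = (-190)*(kh X Y)^2 := by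
  simp only [LH2, kh, kT, kD, kphi, kal, kbe]
  ring

theorem LH3_eq (X Y : R) : LH3 X Y (kal X Y) (kbe X Y) = 1140*(kh X Y)*(kT X Y) := by
  simp only [LH3, kh, kT, kD, kphi, kal, kbe]
  ring

theorem LH4_eq (X Y : R) : LH4 X Y (kal X Y) (kbe X Y) = 4845*(kh X Y)^3 + (-9849600)*(kD X Y) := by
  simp only [LH4, kh, kT, kD, kphi, kal, kbe]
  ring

theorem LH5_eq (X Y : R) : LH5 X Y (kal X Y) (kbe X Y) = (-15504)*(kh X Y)^2*(kT X Y) := by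
  simp only [LH5, kh, kT, kD, kphi, kal, kbe]
  ring

theorem LH6_eq (X Y : R) : LH6 X Y (kal X Y) (kbe X Y) = (-38760)*(kh X Y)^4 + (-110315520)*(kh X Y)*(kD X Y) := by
  simp only [LH6, kh, kT, kD, kphi, kal, kbe]
  ring

theorem LH7_eq (X Y : R) : LH7 X Y (kal X Y) (kbe X Y) = 77520*(kh X Y)^3*(kT X Y) + 315187200*(kT X Y)*(kD X Y) := by
  simp only [LH7, kh, kT, kD, kphi, kal, kbe]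
  ring

theorem LH8_eq (X Y : R) : LH8 X Y (kal X Y) (kbe X Y) = 125970*(kh X Y)^5 + (-1946280960)*(kh X Y)^2*(kD X Y) := by
  simp only [LH8, kh, kT, kD, kphi, kal, kbe]
  ring

theorem LH9_eq (X Y : R) : LH9 X Y (kal X Y) (kbe X Y) = (-167960)*(kh X Y)^4*(kT X Y) + 13658112000*(kh X Y)*(kT X Y)*(kD X Y) := by
  simp only [LH9, kh, kT, kD, kphi, kal, kbe]
  ring

theorem LH10_eq (X Y : R) : LH10 X Y (kal X Y) (kbe X Y) = (-184756)*(kh X Y)^6 + 44921530368*(kh X Y)^3*(kD X Y) + (-47202435072000)*(kD X Y)^2 := by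
  simp only [LH10, kh, kT, kD, kphi, kal, kbe]
  ring

theorem LH11_eq (X Y : R) : LH11 X Y (kal X Y) (kbe X Y) = 167960*(kh X Y)^5*(kT X Y) + (-94787297280)*(kh X Y)^2*(kT X Y)*(kD X Y) := by
  simp only [LH11, kh, kT, kD, kphi, kal, kbe]
  ring

theorem LH12_eq (X Y : R) : LH12 X Y (kal X Y) (kbe X Y) = 125970*(kh X Y)^7 + (-143563829760)*(kh X Y)^4*(kD X Y) + 113285844172800*(kh X Y)*(kD X Y)^2 := by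
  simp only [LH12, kh, kT, kD, kphi, kal, kbe]
  ring

theorem LH13_eq (X Y : R) : LH13 X Y (kal X Y) (kbe X Y) = (-77520)*(kh X Y)^6*(kT X Y) + 161627996160*(kh X Y)^3*(kT X Y)*(kD X Y) + (-174285914112000)*(kT X Y)*(kD X Y)^2 := by
  simp only [LH13, kh, kT, kD, kphi, kal, kbe]
  ring

theorem LH14_eq (X Y : R) : LH14 X Y (kal X Y) (kbe X Y) = (-38760)*(kh X Y)^8 + 137784084480*(kh X Y)^5*(kD X Y) + (-858358127001600)*(kh X Y)^2*(kD X Y)^2 := by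
  simp only [LH14, kh, kT, kD, kphi, kal, kbe]
  ring

theorem LH15_eq (X Y : R) : LH15 X Y (kal X Y) (kbe X Y) = 15504*(kh X Y)^7*(kT X Y) + (-88870182912)*(kh X Y)^4*(kT X Y)*(kD X Y) + 1394287312896000*(kh X Y)*(kT X Y)*(kD X Y)^2 := by
  simp only [LH15, kh, kT, kD, kphi, kal, kbe]
  ring

theorem LH16_eq (X Y : R) : LH16 X Y (kal X Y) (kbe X Y) = 4845*(kh X Y)^9 + (-42857579520)*(kh X Y)^6*(kD X Y) + 1584258959278080*(kh X Y)^3*(kD X Y)^2 + (-3011660595855360000)*(kD X Y)^3 := by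
  simp only [LH16, kh, kT, kD, kphi, kal, kbe]
  ring

theorem LH17_eq (X Y : R) : LH17 X Y (kal X Y) (kbe X Y) = (-1140)*(kh X Y)^8*(kT X Y) + 15002910720*(kh X Y)^5*(kT X Y)*(kD X Y) + (-1080572667494400)*(kh X Y)^2*(kT X Y)*(kD X Y)^2 := by
  simp only [LH17, kh, kT, kD, kphi, kal, kbe]
  ring

theorem LH18_eq (X Y : R) : LH18 X Y (kal X Y) (kbe X Y) = (-190)*(kh X Y)^10 + 3608893440*(kh X Y)^7*(kD X Y) + (-473621971599360)*(kh X Y)^4*(kD X Y)^2 + (-3212437968912384000)*(kh X Y)*(kD X Y)^3 := by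
  simp only [LH18, kh, kT, kD, kphi, kal, kbe]
  ring

theorem LH19_eq (X Y : R) : LH19 X Y (kal X Y) (kbe X Y) = 20*(kh X Y)^9*(kT X Y) + (-534159360)*(kh X Y)^6*(kT X Y)*(kD X Y) + 117413668454400*(kh X Y)^3*(kT X Y)*(kD X Y)^2 + 3381513651486720000*(kT X Y)*(kD X Y)^3 := by
  simp only [LH19, kh, kT, kD, kphi, kal, kbe]
  ring

theorem LH20_eq (X Y : R) : LH20 X Y (kal X Y) (kbe X Y) = 1*(kh X Y)^11 + (-36723456)*(kh X Y)^8*(kD X Y) + 12915503529984*(kh X Y)^5*(kD X Y)^2 + 929916254158848000*(kh X Y)^2*(kD X Y)^3 := by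
  simp only [LH20, kh, kT, kD, kphi, kal, kbe]
  ring

theorem kh_line (X Y t : R) : kh (X*(1+t*kal X Y)^5) (Y*(1-t*kbe X Y)^5) = fH (kh X Y) (kT X Y) (kD X Y) t := by
  rw [kh_expand, LH0_eq, LH1_eq, LH2_eq, LH3_eq, LH4_eq, LH5_eq, LH6_eq, LH7_eq, LH8_eq, LH9_eq, LH10_eq, LH11_eq, LH12_eq, LH13_eq, LH14_eq, LH15_eq, LH16_eq, LH17_eq, LH18_eq, LH19_eq, LH20_eq]
  unfold fH
  ring

end Fermat.Agent.S52.K
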