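import Fermat.Agent.S52.K.LineTDefs

/-! # S52 / K : coefficients 0..12 of `kT (X(t),Y(t))` (auto-generated) -/

set_option autoImplicit false
set_option maxHeartbeats 4000000

namespace Fermat.Agent.S52.K

variable {R : Type*} [CommRing R]

theorem LT0_eq (X Y : R) : LT0 X Y (kal X Y) (kbe X Y) = 1*(kT X Y) := by
  simp only [LT0, kh, kT, kD, kphi, kal, kbe]
  ring

theorem LT1_eq (X Y : R) : LT1 X Y (kal X Y) (kbe X Y) = 30*(kh X Y)^2 := by
  simp only [LT1, kh, kT, kD, kphi, kal, kbe]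
  ring

theorem LT2_eq (X Y : R) : LT2 X Y (kal X Y) (kbe X Y) = (-435)*(kh X Y)*(kT X Y) := by
  simp only [LT2, kh, kT, kD, kphi, kal, kbe]
  ring

theorem LT3_eq (X Y : R) : LT3 X Y (kal X Y) (kbe X Y) = (-4060)*(kh X Y)^3 + 5011200*(kD X Y) := by
  simp only [LT3, kh, kT, kD, kphi, kal, kbe]
  ring

theorem LT4_eq (X Y : R) : LT4 X Y (kal X Y) (kbe X Y) = 27405*(kh X Y)^2*(kT X Y) := by
  simp only [LT4, kh, kT, kD, kphi, kal, kbe]
  ring

theorem LT5_eq (X Y : R) : LT5 X Y (kal X Y) (kbe X Y) = 142506*(kh X Y)^4 + (-81181440)*(kh X Y)*(kD X Y) := by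
  simp only [LT5, kh, kT, kD, kphi, kal, kbe]
  ring

theorem LT6_eq (X Y : R) : LT6 X Y (kal X Y) (kbe X Y) = (-593775)*(kh X Y)^3*(kT X Y) + 270604800*(kT X Y)*(kD X Y) := by
  simp only [LT6, kh, kT, kD, kphi, kal, kbe]
  ring

theorem LT7_eq (X Y : R) : LT7 X Y (kal X Y) (kbe X Y) = (-2035800)*(kh X Y)^5 + 6765120000*(kh X Y)^2*(kD X Y) := by
  simp only [LT7, kh, kT, kD, kphi, kal, kbe]
  ring

theorem LT8_eq (X Y : R) : LT8 X Y (kal X Y) (kbe X Y) = 5852925*(kh X Y)^4*(kT X Y) + (-24895641600)*(kh X Y)*(kT X Y)*(kD X Y) := by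
  simp only [LT8, kh, kT, kD, kphi, kal, kbe]
  ring

theorem LT9_eq (X Y : R) : LT9 X Y (kal X Y) (kbe X Y) = 14307150*(kh X Y)^6 + (-38035008000)*(kh X Y)^3*(kD X Y) + 95599263744000*(kD X Y)^2 := by
  simp only [LT9, kh, kT, kD, kphi, kal, kbe]
  ring

theorem LT10_eq (X Y : R) : LT10 X Y (kal X Y) (kbe X Y) = (-30045015)*(kh X Y)^5*(kT X Y) + (-374264478720)*(kh X Y)^2*(kT X Y)*(kD X Y) := by
  simp only [LT10, kh, kT, kD, kphi, kal, kbe]
  ring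

theorem LT11_eq (X Y : R) : LT11 X Y (kal X Y) (kbe X Y) = (-54627300)*(kh X Y)^7 + (-2708438342400)*(kh X Y)^4*(kD X Y) + 4359326426726400*(kh X Y)*(kD X Y)^2 := by
  simp only [LT11, kh, kT, kD, kphi, kal, kbe]
  ring

theorem LT12_eq (X Y : R) : LT12 X Y (kal X Y) (kbe X Y) = 86493225*(kh X Y)^6*(kT X Y) + 11194740172800*(kh X Y)^3*(kT X Y)*(kD X Y) + (-7265544044544000)*(kT X Y)*(kD X Y)^2 := by
  simp only [LT12, kh, kT, kD, kphi, kal, kbe]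
  ring

end Fermat.Agent.S52.K
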