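import Fermat.Agent.S52.K.LineTDefs

/-! # S52 / K : coefficients 13..18 of `kT (X(t),Y(t))` (auto-generated) -/

set_option autoImplicit false
set_option maxHeartbeats 4000000

namespace Fermat.Agent.S52.K

variable {R : Type*} [CommRing R]

theorem LT13_eq (X Y : R) : LT13 X Y (kal X Y) (kbe X Y) = 119759850*(kh X Y)^8 + 32579058988800*(kh X Y)^5*(kD X Y) + (-35964443020492800)*(kh X Y)^2*(kD X Y)^2 := by
  simp only [LT13, kh, kT, kD, kphi, kal, kbe]
  ring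

theorem LT14_eq (X Y : R) : LT14 X Y (kal X Y) (kbe X Y) = (-145422675)*(kh X Y)^7*(kT X Y) + (-74381953190400)*(kh X Y)^4*(kT X Y)*(kD X Y) := by
  simp only [LT14, kh, kT, kD, kphi, kal, kbe]
  ring

theorem LT15_eq (X Y : R) : LT15 X Y (kal X Y) (kbe X Y) = (-155117520)*(kh X Y)^9 + (-136970011100160)*(kh X Y)^6*(kD X Y) + 237147357613916160*(kh X Y)^3*(kD X Y)^2 := by
  simp only [LT15, kh, kT, kD, kphi, kal, kbe]
  ring

theorem LT16_eq (X Y : R) : LT16 X Y (kal X Y) (kbe X Y) = 145422675*(kh X Y)^8*(kT X Y) + 209073598156800*(kh X Y)^5*(kT X Y)*(kD X Y) + (-889302591052185600)*(kh X Y)^2*(kT X Y)*(kD X Y)^2 := by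
  simp only [LT16, kh, kT, kD, kphi, kal, kbe]
  ring

theorem LT17_eq (X Y : R) : LT17 X Y (kal X Y) (kbe X Y) = 119759850*(kh X Y)^10 + 267018203980800*(kh X Y)^7*(kD X Y) + (-3485281478167756800)*(kh X Y)^4*(kD X Y)^2 + 3615799711383945216000*(kh X Y)*(kD X Y)^3 := by
  simp only [LT17, kh, kT, kD, kphi, kal, kbe]
  ring

theorem LT18_eq (X Y : R) : LT18 X Y (kal X Y) (kbe X Y) = (-86493225)*(kh X Y)^9*(kT X Y) + (-288067468953600)*(kh X Y)^6*(kT X Y)*(kD X Y) + 7881662179521331200*(kh X Y)^3*(kT X Y)*(kD X Y)^2 + (-4017555234871050240000)*(kT X Y)*(kD X Y)^3 := by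
  simp only [LT18, kh, kT, kD, kphi, kal, kbe]
  ring

end Fermat.Agent.S52.K
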