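import Fermat.Agent.S52.K.LineTDefs

/-! # S52 / K : coefficients 19..22 of `kT (X(t),Y(t))` (auto-generated) -/

set_option autoImplicit false
set_option maxHeartbeats 4000000

namespace Fermat.Agent.S52.K

variable {R : Type*} [CommRing R]

theorem LT19_eq (X Y : R) : LT19 X Y (kal X Y) (kbe X Y) = (-54627300)*(kh X Y)^11 + (-263137595846400)*(kh X Y)^8*(kD X Y) + 14246737639007846400*(kh X Y)^5*(kD X Y)^2 + (-22138843846894682112000)*(kh X Y)^2*(kD X Y)^3 := by
  simp only [LT19, kh, kT, kD, kphi, kal, kbe]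
  ring

theorem LT20_eq (X Y : R) : LT20 X Y (kal X Y) (kbe X Y) = 30045015*(kh X Y)^10*(kT X Y) + 203855471677440*(kh X Y)^7*(kT X Y)*(kD X Y) + (-19214717810198446080)*(kh X Y)^4*(kT X Y)*(kD X Y)^2 + 17761823143640432640000*(kh X Y)*(kT X Y)*(kD X Y)^3 := by
  simp only [LT20, kh, kT, kD, kphi, kal, kbe]
  ring

theorem LT21_eq (X Y : R) : LT21 X Y (kal X Y) (kbe X Y) = 14307150*(kh X Y)^12 + 133590358598400*(kh X Y)^9*(kD X Y) + (-20908591452861235200)*(kh X Y)^6*(kD X Y)^2 + 41215887704266584883200*(kh X Y)^3*(kD X Y)^3 + (-29230886087819683430400000)*(kD X Y)^4 := by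
  simp only [LT21, kh, kT, kD, kphi, kal, kbe]
  ring

theorem LT22_eq (X Y : R) : LT22 X Y (kal X Y) (kbe X Y) = (-5852925)*(kh X Y)^11*(kT X Y) + (-73734666508800)*(kh X Y)^8*(kT X Y)*(kD X Y) + 17973273419159961600*(kh X Y)^5*(kT X Y)*(kD X Y)^2 + (-23597850747979431936000)*(kh X Y)^2*(kT X Y)*(kD X Y)^3 := by
  simp only [LT22, kh, kT, kD, kphi, kal, kbe]
  ring

end Fermat.Agent.S52.K
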