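import Fermat.Agent.S52.K.LineTDefs

/-! # S52 / K : coefficients 23..25 of `kT (X(t),Y(t))` (auto-generated) -/

set_option autoImplicit false
set_option maxHeartbeats 4000000

namespace Fermat.Agent.S52.K

variable {R : Type*} [CommRing R]

theorem LT23_eq (X Y : R) : LT23 X Y (kal X Y) (kbe X Y) = (-2035800)*(kh X Y)^13 + (-33996351628800)*(kh X Y)^10*(kD X Y) + 12476571793647206400*(kh X Y)^7*(kD X Y)^2 + (-29446013759435204198400)*(kh X Y)^4*(kD X Y)^3 + (-54903229521470014095360000)*(kh X Y)*(kD X Y)^4 := by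
  simp only [LT23, kh, kT, kD, kphi, kal, kbe]
  ring

theorem LT24_eq (X Y : R) : LT24 X Y (kal X Y) (kbe X Y) = 593775*(kh X Y)^12*(kT X Y) + 12942486374400*(kh X Y)^9*(kT X Y)*(kD X Y) + (-6877999592688844800)*(kh X Y)^6*(kT X Y)*(kD X Y)^2 + 11627926455526096896000*(kh X Y)^3*(kT X Y)*(kD X Y)^3 + 45752691267891678412800000*(kT X Y)*(kD X Y)^4 := by
  simp only [LT24, kh, kT, kD, kphi, kal, kbe]
  ring

theorem LT25_eq (X Y : R) : LT25 X Y (kal X Y) (kbe X Y) = 142506*(kh X Y)^14 + 3998272513536*(kh X Y)^11*(kD X Y) + (-3001181670175408128)*(kh X Y)^8*(kD X Y)^2 + 8215692682431874203648*(kh X Y)^5*(kD X Y)^3 + (-162422054001015458365440000)*(kh X Y)^2*(kD X Y)^4 := by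
  simp only [LT25, kh, kT, kD, kphi, kal, kbe]
  ring

end Fermat.Agent.S52.K
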