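import Fermat.Agent.S52.K.LineTDefs

/-! # S52 / K : coefficients 26..28 of `kT (X(t),Y(t))` (auto-generated) -/

set_option autoImplicit false
set_option maxHeartbeats 4000000

namespace Fermat.Agent.S52.K

variable {R : Type*} [CommRing R]

theorem LT26_eq (X Y : R) : LT26 X Y (kal X Y) (kbe X Y) = (-27405)*(kh X Y)^13*(kT X Y) + (-977532779520)*(kh X Y)^10*(kT X Y)*(kD X Y) + 1009272850407751680*(kh X Y)^7*(kT X Y)*(kD X Y)^2 + (-2081773929940962508800)*(kh X Y)^4*(kT X Y)*(kD X Y)^3 + 366021530143133427302400000*(kh X Y)*(kT X Y)*(kD X Y)^4 := by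
  simp only [LT26, kh, kT, kD, kphi, kal, kbe]
  ring

theorem LT27_eq (X Y : R) : LT27 X Y (kal X Y) (kbe X Y) = (-4060)*(kh X Y)^15 + (-182045871360)*(kh X Y)^12*(kD X Y) + 253675112528609280*(kh X Y)^9*(kD X Y)^2 + (-788715656681336340480)*(kh X Y)^6*(kD X Y)^3 + 357616591302809622675456000*(kh X Y)^3*(kD X Y)^4 + (-468507558583210786947072000000)*(kD X Y)^5 := by
  simp only [LT27, kh, kT, kD, kphi, kal, kbe]
  ring

theorem LT28_eq (X Y : R) : LT28 X Y (kal X Y) (kbe X Y) = 435*(kh X Y)^14*(kT X Y) + 24270243840*(kh X Y)^11*(kT X Y)*(kD X Y) + (-44768387043164160)*(kh X Y)^8*(kT X Y)*(kD X Y)^2 + 108850924441357516800*(kh X Y)^5*(kT X Y)*(kD X Y)^3 + (-191144576852525234257920000)*(kh X Y)^2*(kT X Y)*(kD X Y)^4 := by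
  simp only [LT28, kh, kT, kD, kphi, kal, kbe]
  ring

end Fermat.Agent.S52.K
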