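import Fermat.Agent.S52.K.LineTDefs

/-! # S52 / K : coefficients 29..30 of `kT (X(t),Y(t))` (auto-generated) -/

set_option autoImplicit false
set_option maxHeartbeats 4000000

namespace Fermat.Agent.S52.K

variable {R : Type*} [CommRing R]

theorem LT29_eq (X Y : R) : LT29 X Y (kal X Y) (kbe X Y) = 30*(kh X Y)^16 + 2063335680*(kh X Y)^13*(kD X Y) + (-4963496574320640)*(kh X Y)^10*(kD X Y)^2 + 17260936434013962240*(kh X Y)^7*(kD X Y)^3 + (-55089045049224669954048000)*(kh X Y)^4*(kD X Y)^4 + (-77546078662048681977446400000)*(kh X Y)*(kD X Y)^5 := by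
  simp only [LT29, kh, kT, kD, kphi, kal, kbe]
  ring

theorem LT30_eq (X Y : R) : LT30 X Y (kal X Y) (kbe X Y) = (-1)*(kh X Y)^15*(kT X Y) + (-84063744)*(kh X Y)^12*(kT X Y)*(kD X Y) + 259826663817216*(kh X Y)^9*(kT X Y)*(kD X Y)^2 + (-727025435069644800)*(kh X Y)^6*(kT X Y)*(kD X Y)^3 + 6731430439413948088320000*(kh X Y)^3*(kT X Y)*(kD X Y)^4 + 51697385774699121318297600000*(kT X Y)*(kD X Y)^5 := by
  simp only [LT30, kh, kT, kD, kphi, kal, kbe]
  ring

end Fermat.Agent.S52.K
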