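import Fermat.Agent.S52.K.LineTExpand
import Fermat.Agent.S52.K.LineTC0
import Fermat.Agent.S52.K.LineTC1
import Fermat.Agent.S52.K.LineTC2
import Fermat.Agent.S52.K.LineTC3
import Fermat.Agent.S52.K.LineTC4
import Fermat.Agent.S52.K.LineTC5

/-! # S52 / K : the identity `kT (X(t), Y(t)) = fT ..` (auto-generated) -/

set_option autoImplicit false
set_option maxHeartbeats 4000000

namespace Fermat.Agent.S52.K

variable {R : Type*} [CommRing R]

theorem kT_line (X Y t : R) : kT (X*(1+t*kal X Y)^5) (Y*(1-t*kbe X Y)^5) = fT (kh X Y) (kT X Y) (kD X Y) t := by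
  rw [kT_expand, LT0_eq, LT1_eq, LT2_eq, LT3_eq, LT4_eq, LT5_eq, LT6_eq, LT7_eq, LT8_eq, LT9_eq, LT10_eq, LT11_eq, LT12_eq, LT13_eq, LT14_eq, LT15_eq, LT16_eq, LT17_eq, LT18_eq, LT19_eq, LT20_eq, LT21_eq, LT22_eq, LT23_eq, LT24_eq, LT25_eq, LT26_eq, LT27_eq, LT28_eq, LT29_eq, LT30_eq]
  unfold fT
  ring

end Fermat.Agent.S52.K
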