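import Fermat.Agent.S52.K.Defs

/-! # S52 / K : coefficients of `kT (X(t),Y(t))` (auto-generated) -/

set_option autoImplicit false
set_option maxHeartbeats 4000000

namespace Fermat.Agent.S52.K

variable {R : Type*} [CommRing R]

def LT0 (X Y A B : R) : R :=
  1*X^6 + 522*X^5*Y + (-10005)*X^4*Y^2 + (-10005)*X^2*Y^4 + (-522)*X*Y^5 + 1*Y^6

def LT1 (X Y A B : R) : R :=
  30*X^6*A + (-2610)*X^5*Y*B + 13050*X^5*Y*A + 100050*X^4*Y^2*B + (-200100)*X^4*Y^2*A + 200100*X^2*Y^4*B + (-100050)*X^2*Y^4*A + 13050*X*Y^5*B + (-2610)*X*Y^5*A + (-30)*Y^6*B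

def LT2 (X Y A B : R) : R :=
  435*X^6*A^2 + 5220*X^5*Y*B^2 + (-65250)*X^5*Y*A*B + 156600*X^5*Y*A^2 + (-450225)*X^4*Y^2*B^2 + 2001000*X^4*Y^2*A*B + (-1900950)*X^4*Y^2*A^2 + (-1900950)*X^2*Y^4*B^2 + 2001000*X^2*Y^4*A*B + (-450225)*X^2*Y^4*A^2 + (-156600)*X*Y^5*B^2 + 65250*X*Y^5*A*B + (-5220)*X*Y^5*A^2 + 435*Y^6*B^2

def LT3 (X Y A B : R) : R :=
  4060*X^6*A^3 + (-5220)*X^5*Y*B^3 + 130500*X^5*Y*A*B^2 + (-783000)*X^5*Y*A^2*B + 1200600*X^5*Y*A^3 + 1200600*X^4*Y^2*B^3 + (-9004500)*X^4*Y^2*A*B^2 + 19009500*X^4*Y^2*A^2*B + (-11405700)*X^4*Y^2*A^3 + 11405700*X^2*Y^4*B^3 + (-19009500)*X^2*Y^4*A*B^2 + 9004500*X^2*Y^4*A^2*B + (-1200600)*X^2*Y^4*A^3 + 1200600*X*Y^5*B^3 + (-783000)*X*Y^5*A*B^2 + 130500*X*Y^5*A^2*B + (-5220)*X*Y^5*A^3 + (-4060)*Y^6*B^3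

def LT4 (X Y A B : R) : R :=
  27405*X^6*A^4 + 2610*X^5*Y*B^4 + (-130500)*X^5*Y*A*B^3 + 1566000*X^5*Y*A^2*B^2 + (-6003000)*X^5*Y*A^3*B + 6603300*X^5*Y*A^4 + (-2101050)*X^4*Y^2*B^4 + 24012000*X^4*Y^2*A*B^3 + (-85542750)*X^4*Y^2*A^2*B^2 + 114057000*X^4*Y^2*A^3*B + (-48474225)*X^4*Y^2*A^4 + (-48474225)*X^2*Y^4*B^4 + 114057000*X^2*Y^4*A*B^3 + (-85542750)*X^2*Y^4*A^2*B^2 + 24012000*X^2*Y^4*A^3*B + (-2101050)*X^2*Y^4*A^4 + (-6603300)*X*Y^5*B^4 + 6003000*X*Y^5*A*B^3 + (-1566000)*X*Y^5*A^2*B^2 + 130500*X*Y^5*A^3*B + (-2610)*X*Y^5*A^4 + 27405*Y^6*B^4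

def LT5 (X Y A B : R) : R :=
  142506*X^6*A^5 + (-522)*X^5*Y*B^5 + 65250*X^5*Y*A*B^4 + (-1566000)*X^5*Y*A^2*B^3 + 12006000*X^5*Y*A^3*B^2 + (-33016500)*X^5*Y*A^4*B + 27733860*X^5*Y*A^5 + 2521260*X^4*Y^2*B^5 + (-42021000)*X^4*Y^2*A*B^4 + 228114000*X^4*Y^2*A^2*B^3 + (-513256500)*X^4*Y^2*A^3*B^2 + 484742250*X^4*Y^2*A^4*B + (-155117520)*X^4*Y^2*A^5 + 155117520*X^2*Y^4*B^5 + (-484742250)*X^2*Y^4*A*B^4 + 513256500*X^2*Y^4*A^2*B^3 + (-228114000)*X^2*Y^4*A^3*B^2 + 42021000*X^2*Y^4*A^4*B + (-2521260)*X^2*Y^4*A^5 + 27733860*X*Y^5*B^5 + (-33016500)*X*Y^5*A*B^4 + 12006000*X*Y^5*A^2*B^3 + (-1566000)*X*Y^5*A^3*B^2 + 65250*X*Y^5*A^4*B + (-522)*X*Y^5*A^5 + (-142506)*Y^6*B^5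

def LT6 (X Y A B : R) : R :=
  593775*X^6*A^6 + (-13050)*X^5*Y*A*B^5 + 783000*X^5*Y*A^2*B^4 + (-12006000)*X^5*Y*A^3*B^3 + 66033000*X^5*Y*A^4*B^2 + (-138669300)*X^5*Y*A^5*B + 92446200*X^5*Y*A^6 + (-2101050)*X^4*Y^2*B^6 + 50425200*X^4*Y^2*A*B^5 + (-399199500)*X^4*Y^2*A^2*B^4 + 1368684000*X^4*Y^2*A^3*B^3 + (-2181340125)*X^4*Y^2*A^4*B^2 + 1551175200*X^4*Y^2*A^5*B + (-387793800)*X^4*Y^2*A^6 + (-387793800)*X^2*Y^4*B^6 + 1551175200*X^2*Y^4*A*B^5 + (-2181340125)*X^2*Y^4*A^2*B^4 + 1368684000*X^2*Y^4*A^3*B^3 + (-399199500)*X^2*Y^4*A^4*B^2 + 50425200*X^2*Y^4*A^5*B + (-2101050)*X^2*Y^4*A^6 + (-92446200)*X*Y^5*B^6 + 138669300*X*Y^5*A*B^5 + (-66033000)*X*Y^5*A^2*B^4 + 12006000*X*Y^5*A^3*B^3 + (-783000)*X*Y^5*A^4*B^2 + 13050*X*Y^5*A^5*B + 593775*Y^6*B^6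

def LT7 (X Y A B : R) : R :=
  2035800*X^6*A^7 + (-156600)*X^5*Y*A^2*B^5 + 6003000*X^5*Y*A^3*B^4 + (-66033000)*X^5*Y*A^4*B^3 + 277338600*X^5*Y*A^5*B^2 + (-462231000)*X^5*Y*A^6*B + 250925400*X^5*Y*A^7 + 1200600*X^4*Y^2*B^7 + (-42021000)*X^4*Y^2*A*B^6 + 479039400*X^4*Y^2*A^2*B^5 + (-2395197000)*X^4*Y^2*A^3*B^4 + 5816907000*X^4*Y^2*A^4*B^3 + (-6980288400)*X^4*Y^2*A^5*B^2 + 3877938000*X^4*Y^2*A^6*B + (-775587600)*X^4*Y^2*A^7 + 775587600*X^2*Y^4*B^7 + (-3877938000)*X^2*Y^4*A*B^6 + 6980288400*X^2*Y^4*A^2*B^5 + (-5816907000)*X^2*Y^4*A^3*B^4 + 2395197000*X^2*Y^4*A^4*B^3 + (-479039400)*X^2*Y^4*A^5*B^2 + 42021000*X^2*Y^4*A^6*B + (-1200600)*X^2*Y^4*A^7 + 250925400*X*Y^5*B^7 + (-462231000)*X*Y^5*A*B^6 + 277338600*X*Y^5*A^2*B^5 + (-66033000)*X*Y^5*A^3*B^4 + 6003000*X*Y^5*A^4*B^3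 + (-156600)*X*Y^5*A^5*B^2 + (-2035800)*Y^6*B^7

def LT8 (X Y A B : R) : R :=
  5852925*X^6*A^8 + (-1200600)*X^5*Y*A^3*B^5 + 33016500*X^5*Y*A^4*B^4 + (-277338600)*X^5*Y*A^5*B^3 + 924462000*X^5*Y*A^6*B^2 + (-1254627000)*X^5*Y*A^7*B + 564582150*X^5*Y*A^8 + (-450225)*X^4*Y^2*B^8 + 24012000*X^4*Y^2*A*B^7 + (-399199500)*X^4*Y^2*A^2*B^6 + 2874236400*X^4*Y^2*A^3*B^5 + (-10179587250)*X^4*Y^2*A^4*B^4 + 18614102400*X^4*Y^2*A^5*B^3 + (-17450721000)*X^4*Y^2*A^6*B^2 + 7755876000*X^4*Y^2*A^7*B + (-1260329850)*X^4*Y^2*A^8 + (-1260329850)*X^2*Y^4*B^8 + 7755876000*X^2*Y^4*A*B^7 + (-17450721000)*X^2*Y^4*A^2*B^6 + 18614102400*X^2*Y^4*A^3*B^5 + (-10179587250)*X^2*Y^4*A^4*B^4 + 2874236400*X^2*Y^4*A^5*B^3 + (-399199500)*X^2*Y^4*A^6*B^2 + 24012000*X^2*Y^4*A^7*B + (-450225)*X^2*Y^4*A^8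 + (-564582150)*X*Y^5*B^8 + 1254627000*X*Y^5*A*B^7 + (-924462000)*X*Y^5*A^2*B^6 + 277338600*X*Y^5*A^3*B^5 + (-33016500)*X*Y^5*A^4*B^4 + 1200600*X*Y^5*A^5*B^3 + 5852925*Y^6*B^8

def LT9 (X Y A B : R) : R :=
  14307150*X^6*A^9 + (-6603300)*X^5*Y*A^4*B^5 + 138669300*X^5*Y*A^5*B^4 + (-924462000)*X^5*Y*A^6*B^3 + 2509254000*X^5*Y*A^7*B^2 + (-2822910750)*X^5*Y*A^8*B + 1066432950*X^5*Y*A^9 + 100050*X^4*Y^2*B^9 + (-9004500)*X^4*Y^2*A*B^8 + 228114000*X^4*Y^2*A^2*B^7 + (-2395197000)*X^4*Y^2*A^3*B^6 + 12215504700*X^4*Y^2*A^4*B^5 + (-32574679200)*X^4*Y^2*A^5*B^4 + 46535256000*X^4*Y^2*A^6*B^3 + (-34901442000)*X^4*Y^2*A^7*B^2 + 12603298500*X^4*Y^2*A^8*B + (-1680439800)*X^4*Y^2*A^9 + 1680439800*X^2*Y^4*B^9 + (-12603298500)*X^2*Y^4*A*B^8 + 34901442000*X^2*Y^4*A^2*B^7 + (-46535256000)*X^2*Y^4*A^3*B^6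 + 32574679200*X^2*Y^4*A^4*B^5 + (-12215504700)*X^2*Y^4*A^5*B^4 + 2395197000*X^2*Y^4*A^6*B^3 + (-228114000)*X^2*Y^4*A^7*B^2 + 9004500*X^2*Y^4*A^8*B + (-100050)*X^2*Y^4*A^9 + 1066432950*X*Y^5*B^9 + (-2822910750)*X*Y^5*A*B^8 + 2509254000*X*Y^5*A^2*B^7 + (-924462000)*X*Y^5*A^3*B^6 + 138669300*X*Y^5*A^4*B^5 + (-6603300)*X*Y^5*A^5*B^4 + (-14307150)*Y^6*B^9

def LT10 (X Y A B : R) : R :=
  30045015*X^6*A^10 + (-27733860)*X^5*Y*A^5*B^5 + 462231000*X^5*Y*A^6*B^4 + (-2509254000)*X^5*Y*A^7*B^3 + 5645821500*X^5*Y*A^8*B^2 + (-5332164750)*X^5*Y*A^9*B + 1706292720*X^5*Y*A^10 + (-10005)*X^4*Y^2*B^10 + 2001000*X^4*Y^2*A*B^9 + (-85542750)*X^4*Y^2*A^2*B^8 + 1368684000*X^4*Y^2*A^3*B^7 + (-10179587250)*X^4*Y^2*A^4*B^6 + 39089615040*X^4*Y^2*A^5*B^5 + (-81436698000)*X^4*Y^2*A^6*B^4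 + 93070512000*X^4*Y^2*A^7*B^3 + (-56714843250)*X^4*Y^2*A^8*B^2 + 16804398000*X^4*Y^2*A^9*B + (-1848483780)*X^4*Y^2*A^10 + (-1848483780)*X^2*Y^4*B^10 + 16804398000*X^2*Y^4*A*B^9 + (-56714843250)*X^2*Y^4*A^2*B^8 + 93070512000*X^2*Y^4*A^3*B^7 + (-81436698000)*X^2*Y^4*A^4*B^6 + 39089615040*X^2*Y^4*A^5*B^5 + (-10179587250)*X^2*Y^4*A^6*B^4 + 1368684000*X^2*Y^4*A^7*B^3 + (-85542750)*X^2*Y^4*A^8*B^2 + 2001000*X^2*Y^4*A^9*B + (-10005)*X^2*Y^4*A^10 + (-1706292720)*X*Y^5*B^10 + 5332164750*X*Y^5*A*B^9 + (-5645821500)*X*Y^5*A^2*B^8 + 2509254000*X*Y^5*A^3*B^7 + (-462231000)*X*Y^5*A^4*B^6 + 27733860*X*Y^5*A^5*B^5 + 30045015*Y^6*B^10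

def LT11 (X Y A B : R) : R :=
  54627300*X^6*A^11 + (-92446200)*X^5*Y*A^6*B^5 + 1254627000*X^5*Y*A^7*B^4 + (-5645821500)*X^5*Y*A^8*B^3 + 10664329500*X^5*Y*A^9*B^2 + (-8531463600)*X^5*Y*A^10*B + 2326762800*X^5*Y*A^11 + (-200100)*X^4*Y^2*A*B^10 + 19009500*X^4*Y^2*A^2*B^9 + (-513256500)*X^4*Y^2*A^3*B^8 + 5816907000*X^4*Y^2*A^4*B^7 + (-32574679200)*X^4*Y^2*A^5*B^6 + 97724037600*X^4*Y^2*A^6*B^5 + (-162873396000)*X^4*Y^2*A^7*B^4 + 151239582000*X^4*Y^2*A^8*B^3 + (-75619791000)*X^4*Y^2*A^9*B^2 + 18484837800*X^4*Y^2*A^10*B + (-1680439800)*X^4*Y^2*A^11 + 1680439800*X^2*Y^4*B^11 + (-18484837800)*X^2*Y^4*A*B^10 + 75619791000*X^2*Y^4*A^2*B^9 + (-151239582000)*X^2*Y^4*A^3*B^8 + 162873396000*X^2*Y^4*A^4*B^7 + (-97724037600)*X^2*Y^4*A^5*B^6 + 32574679200*X^2*Y^4*A^6*B^5 + (-5816907000)*X^2*Y^4*A^7*B^4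 + 513256500*X^2*Y^4*A^8*B^3 + (-19009500)*X^2*Y^4*A^9*B^2 + 200100*X^2*Y^4*A^10*B + 2326762800*X*Y^5*B^11 + (-8531463600)*X*Y^5*A*B^10 + 10664329500*X*Y^5*A^2*B^9 + (-5645821500)*X*Y^5*A^3*B^8 + 1254627000*X*Y^5*A^4*B^7 + (-92446200)*X*Y^5*A^5*B^6 + (-54627300)*Y^6*B^11

def LT12 (X Y A B : R) : R :=
  86493225*X^6*A^12 + (-250925400)*X^5*Y*A^7*B^5 + 2822910750*X^5*Y*A^8*B^4 + (-10664329500)*X^5*Y*A^9*B^3 + 17062927200*X^5*Y*A^10*B^2 + (-11633814000)*X^5*Y*A^11*B + 2714556600*X^5*Y*A^12 + (-1900950)*X^4*Y^2*A^2*B^10 + 114057000*X^4*Y^2*A^3*B^9 + (-2181340125)*X^4*Y^2*A^4*B^8 + 18614102400*X^4*Y^2*A^5*B^7 + (-81436698000)*X^4*Y^2*A^6*B^6 + 195448075200*X^4*Y^2*A^7*B^5 + (-264669268500)*X^4*Y^2*A^8*B^4 + 201652776000*X^4*Y^2*A^9*B^3 + (-83181770100)*X^4*Y^2*A^10*B^2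 + 16804398000*X^4*Y^2*A^11*B + (-1260329850)*X^4*Y^2*A^12 + (-1260329850)*X^2*Y^4*B^12 + 16804398000*X^2*Y^4*A*B^11 + (-83181770100)*X^2*Y^4*A^2*B^10 + 201652776000*X^2*Y^4*A^3*B^9 + (-264669268500)*X^2*Y^4*A^4*B^8 + 195448075200*X^2*Y^4*A^5*B^7 + (-81436698000)*X^2*Y^4*A^6*B^6 + 18614102400*X^2*Y^4*A^7*B^5 + (-2181340125)*X^2*Y^4*A^8*B^4 + 114057000*X^2*Y^4*A^9*B^3 + (-1900950)*X^2*Y^4*A^10*B^2 + (-2714556600)*X*Y^5*B^12 + 11633814000*X*Y^5*A*B^11 + (-17062927200)*X*Y^5*A^2*B^10 + 10664329500*X*Y^5*A^3*B^9 + (-2822910750)*X*Y^5*A^4*B^8 + 250925400*X*Y^5*A^5*B^7 + 86493225*Y^6*B^12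

def LT13 (X Y A B : R) : R :=
  119759850*X^6*A^13 + (-564582150)*X^5*Y*A^8*B^5 + 5332164750*X^5*Y*A^9*B^4 + (-17062927200)*X^5*Y*A^10*B^3 + 23267628000*X^5*Y*A^11*B^2 + (-13572783000)*X^5*Y*A^12*B + 2714556600*X^5*Y*A^13 + (-11405700)*X^4*Y^2*A^3*B^10 + 484742250*X^4*Y^2*A^4*B^9 + (-6980288400)*X^4*Y^2*A^5*B^8 + 46535256000*X^4*Y^2*A^6*B^7 + (-162873396000)*X^4*Y^2*A^7*B^6 + 317603122200*X^4*Y^2*A^8*B^5 + (-352892358000)*X^4*Y^2*A^9*B^4 + 221818053600*X^4*Y^2*A^10*B^3 + (-75619791000)*X^4*Y^2*A^11*B^2 + 12603298500*X^4*Y^2*A^12*B + (-775587600)*X^4*Y^2*A^13 + 775587600*X^2*Y^4*B^13 + (-12603298500)*X^2*Y^4*A*B^12 + 75619791000*X^2*Y^4*A^2*B^11 + (-221818053600)*X^2*Y^4*A^3*B^10 + 352892358000*X^2*Y^4*A^4*B^9 + (-317603122200)*X^2*Y^4*A^5*B^8 + 162873396000*X^2*Y^4*A^6*B^7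 + (-46535256000)*X^2*Y^4*A^7*B^6 + 6980288400*X^2*Y^4*A^8*B^5 + (-484742250)*X^2*Y^4*A^9*B^4 + 11405700*X^2*Y^4*A^10*B^3 + 2714556600*X*Y^5*B^13 + (-13572783000)*X*Y^5*A*B^12 + 23267628000*X*Y^5*A^2*B^11 + (-17062927200)*X*Y^5*A^3*B^10 + 5332164750*X*Y^5*A^4*B^9 + (-564582150)*X*Y^5*A^5*B^8 + (-119759850)*Y^6*B^13

def LT14 (X Y A B : R) : R :=
  145422675*X^6*A^14 + (-1066432950)*X^5*Y*A^9*B^5 + 8531463600*X^5*Y*A^10*B^4 + (-23267628000)*X^5*Y*A^11*B^3 + 27145566000*X^5*Y*A^12*B^2 + (-13572783000)*X^5*Y*A^13*B + 2326762800*X^5*Y*A^14 + (-48474225)*X^4*Y^2*A^4*B^10 + 1551175200*X^4*Y^2*A^5*B^9 + (-17450721000)*X^4*Y^2*A^6*B^8 + 93070512000*X^4*Y^2*A^7*B^7 + (-264669268500)*X^4*Y^2*A^8*B^6 + 423470829600*X^4*Y^2*A^9*B^5 + (-388181593800)*X^4*Y^2*A^10*B^4 + 201652776000*X^4*Y^2*A^11*B^3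 + (-56714843250)*X^4*Y^2*A^12*B^2 + 7755876000*X^4*Y^2*A^13*B + (-387793800)*X^4*Y^2*A^14 + (-387793800)*X^2*Y^4*B^14 + 7755876000*X^2*Y^4*A*B^13 + (-56714843250)*X^2*Y^4*A^2*B^12 + 201652776000*X^2*Y^4*A^3*B^11 + (-388181593800)*X^2*Y^4*A^4*B^10 + 423470829600*X^2*Y^4*A^5*B^9 + (-264669268500)*X^2*Y^4*A^6*B^8 + 93070512000*X^2*Y^4*A^7*B^7 + (-17450721000)*X^2*Y^4*A^8*B^6 + 1551175200*X^2*Y^4*A^9*B^5 + (-48474225)*X^2*Y^4*A^10*B^4 + (-2326762800)*X*Y^5*B^14 + 13572783000*X*Y^5*A*B^13 + (-27145566000)*X*Y^5*A^2*B^12 + 23267628000*X*Y^5*A^3*B^11 + (-8531463600)*X*Y^5*A^4*B^10 + 1066432950*X*Y^5*A^5*B^9 + 145422675*Y^6*B^14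

def LT15 (X Y A B : R) : R :=
  155117520*X^6*A^15 + (-1706292720)*X^5*Y*A^10*B^5 + 11633814000*X^5*Y*A^11*B^4 + (-27145566000)*X^5*Y*A^12*B^3 + 27145566000*X^5*Y*A^13*B^2 + (-11633814000)*X^5*Y*A^14*B + 1706292720*X^5*Y*A^15 + (-155117520)*X^4*Y^2*A^5*B^10 + 3877938000*X^4*Y^2*A^6*B^9 + (-34901442000)*X^4*Y^2*A^7*B^8 + 151239582000*X^4*Y^2*A^8*B^7 + (-352892358000)*X^4*Y^2*A^9*B^6 + 465817912560*X^4*Y^2*A^10*B^5 + (-352892358000)*X^4*Y^2*A^11*B^4 + 151239582000*X^4*Y^2*A^12*B^3 + (-34901442000)*X^4*Y^2*A^13*B^2 + 3877938000*X^4*Y^2*A^14*B + (-155117520)*X^4*Y^2*A^15 + 155117520*X^2*Y^4*B^15 + (-3877938000)*X^2*Y^4*A*B^14 + 34901442000*X^2*Y^4*A^2*B^13 + (-151239582000)*X^2*Y^4*A^3*B^12 + 352892358000*X^2*Y^4*A^4*B^11 + (-465817912560)*X^2*Y^4*A^5*B^10 + 352892358000*X^2*Y^4*A^6*B^9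 + (-151239582000)*X^2*Y^4*A^7*B^8 + 34901442000*X^2*Y^4*A^8*B^7 + (-3877938000)*X^2*Y^4*A^9*B^6 + 155117520*X^2*Y^4*A^10*B^5 + 1706292720*X*Y^5*B^15 + (-11633814000)*X*Y^5*A*B^14 + 27145566000*X*Y^5*A^2*B^13 + (-27145566000)*X*Y^5*A^3*B^12 + 11633814000*X*Y^5*A^4*B^11 + (-1706292720)*X*Y^5*A^5*B^10 + (-155117520)*Y^6*B^15

def LT16 (X Y A B : R) : R :=
  145422675*X^6*A^16 + (-2326762800)*X^5*Y*A^11*B^5 + 13572783000*X^5*Y*A^12*B^4 + (-27145566000)*X^5*Y*A^13*B^3 + 23267628000*X^5*Y*A^14*B^2 + (-8531463600)*X^5*Y*A^15*B + 1066432950*X^5*Y*A^16 + (-387793800)*X^4*Y^2*A^6*B^10 + 7755876000*X^4*Y^2*A^7*B^9 + (-56714843250)*X^4*Y^2*A^8*B^8 + 201652776000*X^4*Y^2*A^9*B^7 + (-388181593800)*X^4*Y^2*A^10*B^6 + 423470829600*X^4*Y^2*A^11*B^5 + (-264669268500)*X^4*Y^2*A^12*B^4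 + 93070512000*X^4*Y^2*A^13*B^3 + (-17450721000)*X^4*Y^2*A^14*B^2 + 1551175200*X^4*Y^2*A^15*B + (-48474225)*X^4*Y^2*A^16 + (-48474225)*X^2*Y^4*B^16 + 1551175200*X^2*Y^4*A*B^15 + (-17450721000)*X^2*Y^4*A^2*B^14 + 93070512000*X^2*Y^4*A^3*B^13 + (-264669268500)*X^2*Y^4*A^4*B^12 + 423470829600*X^2*Y^4*A^5*B^11 + (-388181593800)*X^2*Y^4*A^6*B^10 + 201652776000*X^2*Y^4*A^7*B^9 + (-56714843250)*X^2*Y^4*A^8*B^8 + 7755876000*X^2*Y^4*A^9*B^7 + (-387793800)*X^2*Y^4*A^10*B^6 + (-1066432950)*X*Y^5*B^16 + 8531463600*X*Y^5*A*B^15 + (-23267628000)*X*Y^5*A^2*B^14 + 27145566000*X*Y^5*A^3*B^13 + (-13572783000)*X*Y^5*A^4*B^12 + 2326762800*X*Y^5*A^5*B^11 + 145422675*Y^6*B^16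

def LT17 (X Y A B : R) : R :=
  119759850*X^6*A^17 + (-2714556600)*X^5*Y*A^12*B^5 + 13572783000*X^5*Y*A^13*B^4 + (-23267628000)*X^5*Y*A^14*B^3 + 17062927200*X^5*Y*A^15*B^2 + (-5332164750)*X^5*Y*A^16*B + 564582150*X^5*Y*A^17 + (-775587600)*X^4*Y^2*A^7*B^10 + 12603298500*X^4*Y^2*A^8*B^9 + (-75619791000)*X^4*Y^2*A^9*B^8 + 221818053600*X^4*Y^2*A^10*B^7 + (-352892358000)*X^4*Y^2*A^11*B^6 + 317603122200*X^4*Y^2*A^12*B^5 + (-162873396000)*X^4*Y^2*A^13*B^4 + 46535256000*X^4*Y^2*A^14*B^3 + (-6980288400)*X^4*Y^2*A^15*B^2 + 484742250*X^4*Y^2*A^16*B + (-11405700)*X^4*Y^2*A^17 + 11405700*X^2*Y^4*B^17 + (-484742250)*X^2*Y^4*A*B^16 + 6980288400*X^2*Y^4*A^2*B^15 + (-46535256000)*X^2*Y^4*A^3*B^14 + 162873396000*X^2*Y^4*A^4*B^13 + (-317603122200)*X^2*Y^4*A^5*B^12 + 352892358000*X^2*Y^4*A^6*B^11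 + (-221818053600)*X^2*Y^4*A^7*B^10 + 75619791000*X^2*Y^4*A^8*B^9 + (-12603298500)*X^2*Y^4*A^9*B^8 + 775587600*X^2*Y^4*A^10*B^7 + 564582150*X*Y^5*B^17 + (-5332164750)*X*Y^5*A*B^16 + 17062927200*X*Y^5*A^2*B^15 + (-23267628000)*X*Y^5*A^3*B^14 + 13572783000*X*Y^5*A^4*B^13 + (-2714556600)*X*Y^5*A^5*B^12 + (-119759850)*Y^6*B^17

def LT18 (X Y A B : R) : R :=
  86493225*X^6*A^18 + (-2714556600)*X^5*Y*A^13*B^5 + 11633814000*X^5*Y*A^14*B^4 + (-17062927200)*X^5*Y*A^15*B^3 + 10664329500*X^5*Y*A^16*B^2 + (-2822910750)*X^5*Y*A^17*B + 250925400*X^5*Y*A^18 + (-1260329850)*X^4*Y^2*A^8*B^10 + 16804398000*X^4*Y^2*A^9*B^9 + (-83181770100)*X^4*Y^2*A^10*B^8 + 201652776000*X^4*Y^2*A^11*B^7 + (-264669268500)*X^4*Y^2*A^12*B^6 + 195448075200*X^4*Y^2*A^13*B^5 + (-81436698000)*X^4*Y^2*A^14*B^4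 + 18614102400*X^4*Y^2*A^15*B^3 + (-2181340125)*X^4*Y^2*A^16*B^2 + 114057000*X^4*Y^2*A^17*B + (-1900950)*X^4*Y^2*A^18 + (-1900950)*X^2*Y^4*B^18 + 114057000*X^2*Y^4*A*B^17 + (-2181340125)*X^2*Y^4*A^2*B^16 + 18614102400*X^2*Y^4*A^3*B^15 + (-81436698000)*X^2*Y^4*A^4*B^14 + 195448075200*X^2*Y^4*A^5*B^13 + (-264669268500)*X^2*Y^4*A^6*B^12 + 201652776000*X^2*Y^4*A^7*B^11 + (-83181770100)*X^2*Y^4*A^8*B^10 + 16804398000*X^2*Y^4*A^9*B^9 + (-1260329850)*X^2*Y^4*A^10*B^8 + (-250925400)*X*Y^5*B^18 + 2822910750*X*Y^5*A*B^17 + (-10664329500)*X*Y^5*A^2*B^16 + 17062927200*X*Y^5*A^3*B^15 + (-11633814000)*X*Y^5*A^4*B^14 + 2714556600*X*Y^5*A^5*B^13 + 86493225*Y^6*B^18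

def LT19 (X Y A B : R) : R :=
  54627300*X^6*A^19 + (-2326762800)*X^5*Y*A^14*B^5 + 8531463600*X^5*Y*A^15*B^4 + (-10664329500)*X^5*Y*A^16*B^3 + 5645821500*X^5*Y*A^17*B^2 + (-1254627000)*X^5*Y*A^18*B + 92446200*X^5*Y*A^19 + (-1680439800)*X^4*Y^2*A^9*B^10 + 18484837800*X^4*Y^2*A^10*B^9 + (-75619791000)*X^4*Y^2*A^11*B^8 + 151239582000*X^4*Y^2*A^12*B^7 + (-162873396000)*X^4*Y^2*A^13*B^6 + 97724037600*X^4*Y^2*A^14*B^5 + (-32574679200)*X^4*Y^2*A^15*B^4 + 5816907000*X^4*Y^2*A^16*B^3 + (-513256500)*X^4*Y^2*A^17*B^2 + 19009500*X^4*Y^2*A^18*B + (-200100)*X^4*Y^2*A^19 + 200100*X^2*Y^4*B^19 + (-19009500)*X^2*Y^4*A*B^18 + 513256500*X^2*Y^4*A^2*B^17 + (-5816907000)*X^2*Y^4*A^3*B^16 + 32574679200*X^2*Y^4*A^4*B^15 + (-97724037600)*X^2*Y^4*A^5*B^14 + 162873396000*X^2*Y^4*A^6*B^13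 + (-151239582000)*X^2*Y^4*A^7*B^12 + 75619791000*X^2*Y^4*A^8*B^11 + (-18484837800)*X^2*Y^4*A^9*B^10 + 1680439800*X^2*Y^4*A^10*B^9 + 92446200*X*Y^5*B^19 + (-1254627000)*X*Y^5*A*B^18 + 5645821500*X*Y^5*A^2*B^17 + (-10664329500)*X*Y^5*A^3*B^16 + 8531463600*X*Y^5*A^4*B^15 + (-2326762800)*X*Y^5*A^5*B^14 + (-54627300)*Y^6*B^19

def LT20 (X Y A B : R) : R :=
  30045015*X^6*A^20 + (-1706292720)*X^5*Y*A^15*B^5 + 5332164750*X^5*Y*A^16*B^4 + (-5645821500)*X^5*Y*A^17*B^3 + 2509254000*X^5*Y*A^18*B^2 + (-462231000)*X^5*Y*A^19*B + 27733860*X^5*Y*A^20 + (-1848483780)*X^4*Y^2*A^10*B^10 + 16804398000*X^4*Y^2*A^11*B^9 + (-56714843250)*X^4*Y^2*A^12*B^8 + 93070512000*X^4*Y^2*A^13*B^7 + (-81436698000)*X^4*Y^2*A^14*B^6 + 39089615040*X^4*Y^2*A^15*B^5 + (-10179587250)*X^4*Y^2*A^16*B^4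 + 1368684000*X^4*Y^2*A^17*B^3 + (-85542750)*X^4*Y^2*A^18*B^2 + 2001000*X^4*Y^2*A^19*B + (-10005)*X^4*Y^2*A^20 + (-10005)*X^2*Y^4*B^20 + 2001000*X^2*Y^4*A*B^19 + (-85542750)*X^2*Y^4*A^2*B^18 + 1368684000*X^2*Y^4*A^3*B^17 + (-10179587250)*X^2*Y^4*A^4*B^16 + 39089615040*X^2*Y^4*A^5*B^15 + (-81436698000)*X^2*Y^4*A^6*B^14 + 93070512000*X^2*Y^4*A^7*B^13 + (-56714843250)*X^2*Y^4*A^8*B^12 + 16804398000*X^2*Y^4*A^9*B^11 + (-1848483780)*X^2*Y^4*A^10*B^10 + (-27733860)*X*Y^5*B^20 + 462231000*X*Y^5*A*B^19 + (-2509254000)*X*Y^5*A^2*B^18 + 5645821500*X*Y^5*A^3*B^17 + (-5332164750)*X*Y^5*A^4*B^16 + 1706292720*X*Y^5*A^5*B^15 + 30045015*Y^6*B^20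

def LT21 (X Y A B : R) : R :=
  14307150*X^6*A^21 + (-1066432950)*X^5*Y*A^16*B^5 + 2822910750*X^5*Y*A^17*B^4 + (-2509254000)*X^5*Y*A^18*B^3 + 924462000*X^5*Y*A^19*B^2 + (-138669300)*X^5*Y*A^20*B + 6603300*X^5*Y*A^21 + (-1680439800)*X^4*Y^2*A^11*B^10 + 12603298500*X^4*Y^2*A^12*B^9 + (-34901442000)*X^4*Y^2*A^13*B^8 + 46535256000*X^4*Y^2*A^14*B^7 + (-32574679200)*X^4*Y^2*A^15*B^6 + 12215504700*X^4*Y^2*A^16*B^5 + (-2395197000)*X^4*Y^2*A^17*B^4 + 228114000*X^4*Y^2*A^18*B^3 + (-9004500)*X^4*Y^2*A^19*B^2 + 100050*X^4*Y^2*A^20*B + (-100050)*X^2*Y^4*A*B^20 + 9004500*X^2*Y^4*A^2*B^19 + (-228114000)*X^2*Y^4*A^3*B^18 + 2395197000*X^2*Y^4*A^4*B^17 + (-12215504700)*X^2*Y^4*A^5*B^16 + 32574679200*X^2*Y^4*A^6*B^15 + (-46535256000)*X^2*Y^4*A^7*B^14 + 34901442000*X^2*Y^4*A^8*B^13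 + (-12603298500)*X^2*Y^4*A^9*B^12 + 1680439800*X^2*Y^4*A^10*B^11 + 6603300*X*Y^5*B^21 + (-138669300)*X*Y^5*A*B^20 + 924462000*X*Y^5*A^2*B^19 + (-2509254000)*X*Y^5*A^3*B^18 + 2822910750*X*Y^5*A^4*B^17 + (-1066432950)*X*Y^5*A^5*B^16 + (-14307150)*Y^6*B^21

def LT22 (X Y A B : R) : R :=
  5852925*X^6*A^22 + (-564582150)*X^5*Y*A^17*B^5 + 1254627000*X^5*Y*A^18*B^4 + (-924462000)*X^5*Y*A^19*B^3 + 277338600*X^5*Y*A^20*B^2 + (-33016500)*X^5*Y*A^21*B + 1200600*X^5*Y*A^22 + (-1260329850)*X^4*Y^2*A^12*B^10 + 7755876000*X^4*Y^2*A^13*B^9 + (-17450721000)*X^4*Y^2*A^14*B^8 + 18614102400*X^4*Y^2*A^15*B^7 + (-10179587250)*X^4*Y^2*A^16*B^6 + 2874236400*X^4*Y^2*A^17*B^5 + (-399199500)*X^4*Y^2*A^18*B^4 + 24012000*X^4*Y^2*A^19*B^3 + (-450225)*X^4*Y^2*A^20*B^2 + (-450225)*X^2*Y^4*A^2*B^20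 + 24012000*X^2*Y^4*A^3*B^19 + (-399199500)*X^2*Y^4*A^4*B^18 + 2874236400*X^2*Y^4*A^5*B^17 + (-10179587250)*X^2*Y^4*A^6*B^16 + 18614102400*X^2*Y^4*A^7*B^15 + (-17450721000)*X^2*Y^4*A^8*B^14 + 7755876000*X^2*Y^4*A^9*B^13 + (-1260329850)*X^2*Y^4*A^10*B^12 + (-1200600)*X*Y^5*B^22 + 33016500*X*Y^5*A*B^21 + (-277338600)*X*Y^5*A^2*B^20 + 924462000*X*Y^5*A^3*B^19 + (-1254627000)*X*Y^5*A^4*B^18 + 564582150*X*Y^5*A^5*B^17 + 5852925*Y^6*B^22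

def LT23 (X Y A B : R) : R :=
  2035800*X^6*A^23 + (-250925400)*X^5*Y*A^18*B^5 + 462231000*X^5*Y*A^19*B^4 + (-277338600)*X^5*Y*A^20*B^3 + 66033000*X^5*Y*A^21*B^2 + (-6003000)*X^5*Y*A^22*B + 156600*X^5*Y*A^23 + (-775587600)*X^4*Y^2*A^13*B^10 + 3877938000*X^4*Y^2*A^14*B^9 + (-6980288400)*X^4*Y^2*A^15*B^8 + 5816907000*X^4*Y^2*A^16*B^7 + (-2395197000)*X^4*Y^2*A^17*B^6 + 479039400*X^4*Y^2*A^18*B^5 + (-42021000)*X^4*Y^2*A^19*B^4 + 1200600*X^4*Y^2*A^20*B^3 + (-1200600)*X^2*Y^4*A^3*B^20 + 42021000*X^2*Y^4*A^4*B^19 + (-479039400)*X^2*Y^4*A^5*B^18 + 2395197000*X^2*Y^4*A^6*B^17 + (-5816907000)*X^2*Y^4*A^7*B^16 + 6980288400*X^2*Y^4*A^8*B^15 + (-3877938000)*X^2*Y^4*A^9*B^14 + 775587600*X^2*Y^4*A^10*B^13 + 156600*X*Y^5*B^23 + (-6003000)*X*Y^5*A*B^22 + 66033000*X*Y^5*A^2*B^21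 + (-277338600)*X*Y^5*A^3*B^20 + 462231000*X*Y^5*A^4*B^19 + (-250925400)*X*Y^5*A^5*B^18 + (-2035800)*Y^6*B^23

def LT24 (X Y A B : R) : R :=
  593775*X^6*A^24 + (-92446200)*X^5*Y*A^19*B^5 + 138669300*X^5*Y*A^20*B^4 + (-66033000)*X^5*Y*A^21*B^3 + 12006000*X^5*Y*A^22*B^2 + (-783000)*X^5*Y*A^23*B + 13050*X^5*Y*A^24 + (-387793800)*X^4*Y^2*A^14*B^10 + 1551175200*X^4*Y^2*A^15*B^9 + (-2181340125)*X^4*Y^2*A^16*B^8 + 1368684000*X^4*Y^2*A^17*B^7 + (-399199500)*X^4*Y^2*A^18*B^6 + 50425200*X^4*Y^2*A^19*B^5 + (-2101050)*X^4*Y^2*A^20*B^4 + (-2101050)*X^2*Y^4*A^4*B^20 + 50425200*X^2*Y^4*A^5*B^19 + (-399199500)*X^2*Y^4*A^6*B^18 + 1368684000*X^2*Y^4*A^7*B^17 + (-2181340125)*X^2*Y^4*A^8*B^16 + 1551175200*X^2*Y^4*A^9*B^15 + (-387793800)*X^2*Y^4*A^10*B^14 + (-13050)*X*Y^5*B^24 + 783000*X*Y^5*A*B^23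 + (-12006000)*X*Y^5*A^2*B^22 + 66033000*X*Y^5*A^3*B^21 + (-138669300)*X*Y^5*A^4*B^20 + 92446200*X*Y^5*A^5*B^19 + 593775*Y^6*B^24

def LT25 (X Y A B : R) : R :=
  142506*X^6*A^25 + (-27733860)*X^5*Y*A^20*B^5 + 33016500*X^5*Y*A^21*B^4 + (-12006000)*X^5*Y*A^22*B^3 + 1566000*X^5*Y*A^23*B^2 + (-65250)*X^5*Y*A^24*B + 522*X^5*Y*A^25 + (-155117520)*X^4*Y^2*A^15*B^10 + 484742250*X^4*Y^2*A^16*B^9 + (-513256500)*X^4*Y^2*A^17*B^8 + 228114000*X^4*Y^2*A^18*B^7 + (-42021000)*X^4*Y^2*A^19*B^6 + 2521260*X^4*Y^2*A^20*B^5 + (-2521260)*X^2*Y^4*A^5*B^20 + 42021000*X^2*Y^4*A^6*B^19 + (-228114000)*X^2*Y^4*A^7*B^18 + 513256500*X^2*Y^4*A^8*B^17 + (-484742250)*X^2*Y^4*A^9*B^16 + 155117520*X^2*Y^4*A^10*B^15 + 522*X*Y^5*B^25 + (-65250)*X*Y^5*A*B^24 + 1566000*X*Y^5*A^2*B^23 + (-12006000)*X*Y^5*A^3*B^22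 + 33016500*X*Y^5*A^4*B^21 + (-27733860)*X*Y^5*A^5*B^20 + (-142506)*Y^6*B^25

def LT26 (X Y A B : R) : R :=
  27405*X^6*A^26 + (-6603300)*X^5*Y*A^21*B^5 + 6003000*X^5*Y*A^22*B^4 + (-1566000)*X^5*Y*A^23*B^3 + 130500*X^5*Y*A^24*B^2 + (-2610)*X^5*Y*A^25*B + (-48474225)*X^4*Y^2*A^16*B^10 + 114057000*X^4*Y^2*A^17*B^9 + (-85542750)*X^4*Y^2*A^18*B^8 + 24012000*X^4*Y^2*A^19*B^7 + (-2101050)*X^4*Y^2*A^20*B^6 + (-2101050)*X^2*Y^4*A^6*B^20 + 24012000*X^2*Y^4*A^7*B^19 + (-85542750)*X^2*Y^4*A^8*B^18 + 114057000*X^2*Y^4*A^9*B^17 + (-48474225)*X^2*Y^4*A^10*B^16 + 2610*X*Y^5*A*B^25 + (-130500)*X*Y^5*A^2*B^24 + 1566000*X*Y^5*A^3*B^23 + (-6003000)*X*Y^5*A^4*B^22 + 6603300*X*Y^5*A^5*B^21 + 27405*Y^6*B^26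

def LT27 (X Y A B : R) : R :=
  4060*X^6*A^27 + (-1200600)*X^5*Y*A^22*B^5 + 783000*X^5*Y*A^23*B^4 + (-130500)*X^5*Y*A^24*B^3 + 5220*X^5*Y*A^25*B^2 + (-11405700)*X^4*Y^2*A^17*B^10 + 19009500*X^4*Y^2*A^18*B^9 + (-9004500)*X^4*Y^2*A^19*B^8 + 1200600*X^4*Y^2*A^20*B^7 + (-1200600)*X^2*Y^4*A^7*B^20 + 9004500*X^2*Y^4*A^8*B^19 + (-19009500)*X^2*Y^4*A^9*B^18 + 11405700*X^2*Y^4*A^10*B^17 + 5220*X*Y^5*A^2*B^25 + (-130500)*X*Y^5*A^3*B^24 + 783000*X*Y^5*A^4*B^23 + (-1200600)*X*Y^5*A^5*B^22 + (-4060)*Y^6*B^27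

def LT28 (X Y A B : R) : R :=
  435*X^6*A^28 + (-156600)*X^5*Y*A^23*B^5 + 65250*X^5*Y*A^24*B^4 + (-5220)*X^5*Y*A^25*B^3 + (-1900950)*X^4*Y^2*A^18*B^10 + 2001000*X^4*Y^2*A^19*B^9 + (-450225)*X^4*Y^2*A^20*B^8 + (-450225)*X^2*Y^4*A^8*B^20 + 2001000*X^2*Y^4*A^9*B^19 + (-1900950)*X^2*Y^4*A^10*B^18 + 5220*X*Y^5*A^3*B^25 + (-65250)*X*Y^5*A^4*B^24 + 156600*X*Y^5*A^5*B^23 + 435*Y^6*B^28

def LT29 (X Y A B : R) : R :=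
  30*X^6*A^29 + (-13050)*X^5*Y*A^24*B^5 + 2610*X^5*Y*A^25*B^4 + (-200100)*X^4*Y^2*A^19*B^10 + 100050*X^4*Y^2*A^20*B^9 + (-100050)*X^2*Y^4*A^9*B^20 + 200100*X^2*Y^4*A^10*B^19 + 2610*X*Y^5*A^4*B^25 + (-13050)*X*Y^5*A^5*B^24 + (-30)*Y^6*B^29

def LT30 (X Y A B : R) : R :=
  1*X^6*A^30 + (-522)*X^5*Y*A^25*B^5 + (-10005)*X^4*Y^2*A^20*B^10 + (-10005)*X^2*Y^4*A^10*B^20 + 522*X*Y^5*A^5*B^25 + 1*Y^6*B^30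

end Fermat.Agent.S52.K
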