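import Fermat.Agent.S52.K.LineTDefs

/-! # S52 / K : expansion of `kT (X(t),Y(t))` in powers of `t` (auto-generated) -/

set_option autoImplicit false
set_option maxHeartbeats 4000000

namespace Fermat.Agent.S52.K

variable {R : Type*} [CommRing R]

theorem kT_expand (X Y A B t : R) : kT (X*(1+t*A)^5) (Y*(1-t*B)^5) =
    LT0 X Y A B * t^0 + LT1 X Y A B * t^1 + LT2 X Y A B * t^2 + LT3 X Y A B * t^3 + LT4 X Y A B * t^4 + LT5 X Y A B * t^5 + LT6 X Y A B * t^6 + LT7 X Y A B * t^7 + LT8 X Y A B * t^8 + LT9 X Y A B * t^9 + LT10 X Y A B * t^10 + LT11 X Y A B * t^11 + LT12 X Y A B * t^12 + LT13 X Y A B * t^13 + LT14 X Y A B * t^14 + LT15 X Y A B * t^15 + LT16 X Y A B * t^16 + LT17 X Y A B * t^17 + LT18 X Y A B * t^18 + LT19 X Y A B * t^19 + LT20 X Y A B * t^20 + LT21 X Y A B * t^21 + LT22 X Y A B * t^22 + LT23 X Y A B * t^23 + LT24 X Y A B * t^24 + LT25 X Y A B * t^25 + LT26 X Y A B *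 t^26 + LT27 X Y A B * t^27 + LT28 X Y A B * t^28 + LT29 X Y A B * t^29 + LT30 X Y A B * t^30 := by
  unfold kT LT0 LT1 LT2 LT3 LT4 LT5 LT6 LT7 LT8 LT9 LT10 LT11 LT12 LT13 LT14 LT15 LT16 LT17 LT18 LT19 LT20 LT21 LT22 LT23 LT24 LT25 LT26 LT27 LT28 LT29 LT30
  ring

end Fermat.Agent.S52.K
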